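import Mathlib.RingTheory.DedekindDomain.Ideal.Lemmas
import Mathlib.RingTheory.Filtration
import Mathlib.FieldTheory.Finite.Basic
import Mathlib.RingTheory.LocalRing.ResidueField.Ideal
import Mathlib.Algebra.Polynomial.Div
import Mathlib.RingTheory.Polynomial.Basic
import Mathlib.Algebra.Polynomial.RingDivision

/-!
# Elements of an inertia group act like polynomials in a uniformiser

Let `I` act on a Dedekind domain trivially modulo the prime `P`, whose residue field is finite, and
let `π` generate `P` modulo `P²`. Modulo every power of `P` each element is a polynomial in `π`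
with coefficients fixed by `I`. Hence the valuation of a fixed element is a multiple of `|I|`, and
for an element `z` fixed by a subgroup `H` the sum of the valuations of `π - s τ π`, `τ ∈ H`, is at
most that of `s z - z` (the inequality behind Herbrand's theorem).
-/

set_option autoImplicit false

noncomputable section

namespace FA.TateTwo

open Polynomial

variable {B : Type*} [CommRing B] [IsDedekindDomain B]

/-- The valuation at `P`. -/
def vP (P : Ideal B) (x : B) : ℕ := multiplicity P (Ideal.span {x})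

variable {P : Ideal B} (hP : Prime P)

include hP in
theorem finiteMultiplicity {x : B} (hx : x ≠ 0) : FiniteMultiplicity P (Ideal.span {x}) :=
  FiniteMultiplicity.of_prime_left hP (by simpa [Ideal.span_singleton_eq_bot] using hx)

include hP in
theorem mem_pow_iff {x : B} (hx : x ≠ 0) (k : ℕ) : x ∈ P ^ k ↔ k ≤ vP P x := by
  rw [vP, ← (finiteMultiplicity hP hx).pow_dvd_iff_le_multiplicity, Ideal.dvd_span_singleton]

include hP in
theorem vP_mul {x y : B} (hx : x ≠ 0) (hy : y ≠ 0) : vP P (x * y) = vP P x + vP P y := by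
  rw [vP, vP, vP, ← Ideal.span_singleton_mul_span_singleton]
  refine multiplicity_mul hP ?_
  rw [Ideal.span_singleton_mul_span_singleton]
  exact finiteMultiplicity hP (mul_ne_zero hx hy)

include hP in
theorem vP_prod {ι : Type*} (s : Finset ι) (f : ι → B) (hf : ∀ i ∈ s, f i ≠ 0) :
    vP P (∏ i ∈ s, f i) = ∑ i ∈ s, vP P (f i) := by
  classical
  induction s using Finset.induction_on with
  | empty =>
    rw [Finset.prod_empty, Finset.sum_empty]
    by_contra h
    have : (1 : B) ∈ P ^ 1 := (mem_pow_iff hP one_ne_zero 1).2 (Nat.one_le_iff_ne_zero.2 h)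
    rw [pow_one] at this
    exact (Ideal.isPrime_of_prime hP).ne_top ((Ideal.eq_top_iff_one P).2 this)
  | @insert a s ha ih =>
    rw [Finset.prod_insert ha, Finset.sum_insert ha, vP_mul hP (hf a (Finset.mem_insert_self a s))
      (Finset.prod_ne_zero_iff.2 fun i hi => hf i (Finset.mem_insert_of_mem hi)),
      ih fun i hi => hf i (Finset.mem_insert_of_mem hi)]

include hP in
theorem vP_eq {x : B} {k : ℕ} (h1 : x ∈ P ^ k) (h2 : x ∉ P ^ (k + 1)) :
    x ≠ 0 ∧ vP P x = k := by
  have hx : x ≠ 0 := fun h => h2 (h ▸ zero_mem _)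
  rw [mem_pow_iff hP hx] at h1 h2
  exact ⟨hx, by omega⟩

include hP in
theorem mem_pow_mul_cancel {x y : B} {a k : ℕ} (hy : y ∉ P ^ (a + 1))
    (h : x * y ∈ P ^ (k + a)) : x ∈ P ^ k := by
  rcases eq_or_ne x 0 with rfl | hx
  · exact zero_mem _
  have hy0 : y ≠ 0 := fun e => hy (e ▸ zero_mem _)
  rw [mem_pow_iff hP hy0] at hy
  rw [mem_pow_iff hP (mul_ne_zero hx hy0), vP_mul hP hx hy0] at h
  rw [mem_pow_iff hP hx]
  omega

include hP in
/-- An element of valuation `d` generates `P ^ d` modulo higher powers. -/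
theorem exists_mul_add {b x : B} {d : ℕ} (hb' : b ∉ P ^ (d + 1))
    (hx : x ∈ P ^ d) (M : ℕ) : ∃ y w, w ∈ P ^ M ∧ x = b * y + w := by
  have hdvd : Ideal.span {b} ⊔ P ^ M ∣ P ^ M := Ideal.dvd_iff_le.2 le_sup_right
  obtain ⟨i, -, hi⟩ := (dvd_prime_pow hP M).1 hdvd
  rw [associated_iff_eq] at hi
  have hid : i ≤ d := by
    by_contra hlt
    exact hb' (Ideal.pow_le_pow_right (by omega : d + 1 ≤ i)
      (hi ▸ Ideal.mem_sup_left (Ideal.mem_span_singleton_self b)))
  have hx' : x ∈ Ideal.span {b} ⊔ P ^ M := hi ▸ Ideal.pow_le_pow_right hid hx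
  obtain ⟨u, hu, w, hw, rfl⟩ := Submodule.mem_sup.1 hx'
  obtain ⟨y, rfl⟩ := Ideal.mem_span_singleton'.1 hu
  exact ⟨y, w, hw, by ring⟩

include hP in
/-- Divided differences: a polynomial vanishing modulo a high power at points which are apart is
a multiple of the product modulo a power. -/
theorem exists_factor {m : ℕ} : ∀ (s : Finset B),
    (∀ a ∈ s, ∀ b ∈ s, a ≠ b → a - b ∉ P ^ (m + 1)) → ∀ (g : B[X]) (N : ℕ),
      (∀ a ∈ s, g.eval a ∈ P ^ (N + s.card * m)) →
      ∃ q : B[X], g - (∏ a ∈ s, (X - C a)) * q ∈ (P ^ N).map (C : B →+* B[X]) := by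
  classical
  intro s
  induction s using Finset.induction_on with
  | empty => exact fun _ g N _ => ⟨g, by simp⟩
  | @insert a s ha ih =>
    intro hsep g N hg
    rw [Finset.card_insert_of_notMem ha] at hg
    obtain ⟨q₁, hq₁⟩ : X - C a ∣ g - C (g.eval a) := Polynomial.dvd_iff_isRoot.2 (by simp [IsRoot])
    obtain ⟨q, hq⟩ := ih (fun x hx y hy => hsep x (Finset.mem_insert_of_mem hx) y
      (Finset.mem_insert_of_mem hy)) q₁ N fun b hb => by
        have hne : b ≠ a := fun e => ha (e ▸ hb)
        refine mem_pow_mul_cancel hP (hsep b (Finset.mem_insert_of_mem hb) a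
          (Finset.mem_insert_self a s) hne) ?_
        have h := congrArg (Polynomial.eval b) hq₁
        simp only [eval_sub, eval_C, eval_mul, eval_X] at h
        rw [show q₁.eval b * (b - a) = g.eval b - g.eval a by rw [h]; ring,
          show N + s.card * m + m = N + (s.card + 1) * m by ring]
        exact sub_mem (hg b (Finset.mem_insert_of_mem hb)) (hg a (Finset.mem_insert_self a s))
    refine ⟨q, ?_⟩
    rw [Finset.prod_insert ha, show g - (X - C a) * (∏ x ∈ s, (X - C x)) * q =
      (X - C a) * (q₁ - (∏ x ∈ s, (X - C x)) * q) + C (g.eval a) by linear_combination hq₁]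
    exact add_mem (Ideal.mul_mem_left _ _ hq) (Ideal.mem_map_of_mem _
      (Ideal.pow_le_pow_right (by omega) (hg a (Finset.mem_insert_self a s))))

/-! ### A group acting trivially modulo `P` -/

variable {I : Type*} [Group I] [MulSemiringAction I B] (hI : ∀ (σ : I) (x : B), σ • x - x ∈ P)

omit [IsDedekindDomain B] in
include hI in
theorem smul_mem_iff_prime (σ : I) (x : B) : σ • x ∈ P ↔ x ∈ P :=
  ⟨fun h => by simpa using sub_mem h (hI σ x), fun h => by simpa using add_mem (hI σ x) h⟩

omit [IsDedekindDomain B] in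
include hI in
theorem smul_pointwise (σ : I) : Ideal.map (MulSemiringAction.toRingHom I B σ) P = P := by
  refine le_antisymm (Ideal.map_le_iff_le_comap.2 fun x hx => (smul_mem_iff_prime hI σ x).2 hx)
    fun x hx => ?_
  rw [show x = MulSemiringAction.toRingHom I B σ (σ⁻¹ • x) from (smul_inv_smul σ x).symm]
  exact Ideal.mem_map_of_mem _ ((smul_mem_iff_prime hI σ⁻¹ x).2 hx)

omit [IsDedekindDomain B] in
include hI in
theorem smul_mem_pow {σ : I} {x : B} {k : ℕ} (hx : x ∈ P ^ k) : σ • x ∈ P ^ k := by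
  rw [← smul_pointwise hI σ, ← Ideal.map_pow]
  exact Ideal.mem_map_of_mem (MulSemiringAction.toRingHom I B σ) hx

/-- The elements fixed by `I` modulo `P ^ N`. -/
def fixMod (I : Type*) [Group I] [MulSemiringAction I B] (P : Ideal B) (N : ℕ) : Subring B where
  carrier := {c | ∀ σ : I, σ • c - c ∈ P ^ N}
  zero_mem' σ := by simp
  one_mem' σ := by simp
  add_mem' {a b} ha hb σ := by
    rw [smul_add, show σ • a + σ • b - (a + b) = σ • a - a + (σ • b - b) by ring]
    exact add_mem (ha σ) (hb σ)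
  neg_mem' {a} ha σ := by
    rw [smul_neg, show -(σ • a) - -a = -(σ • a - a) by ring]
    exact neg_mem (ha σ)
  mul_mem' {a b} ha hb σ := by
    rw [smul_mul', show σ • a * σ • b - a * b = σ • a * (σ • b - b) + (σ • a - a) * b by ring]
    exact add_mem (Ideal.mul_mem_left _ _ (hb σ)) (Ideal.mul_mem_right _ _ (ha σ))

omit [IsDedekindDomain B] in
theorem mem_fixMod_of_fixed {c : B} (hc : ∀ σ : I, σ • c = c) (N : ℕ) : c ∈ fixMod I P N :=
  fun σ => by simp [hc σ]

variable [Finite (B ⧸ P)]

omit [IsDedekindDomain B] in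
theorem natCard_quotient_mem : (Nat.card (B ⧸ P) : B) ∈ P := by
  have := Fintype.ofFinite (B ⧸ P)
  rw [← Ideal.Quotient.eq_zero_iff_mem, map_natCast, Nat.card_eq_fintype_card,
    Nat.cast_card_eq_zero]

include hP hI in
/-- Every residue class has representatives fixed modulo any power of `P`. -/
theorem exists_fixMod (x : B) (N : ℕ) : ∃ c ∈ fixMod I P N, c - x ∈ P := by
  have : P.IsMaximal := (Ideal.isPrime_of_prime hP).isMaximal hP.ne_zero
  let := Ideal.Quotient.field P
  have := Fintype.ofFinite (B ⧸ P)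
  set q := Nat.card (B ⧸ P)
  refine ⟨x ^ q ^ N, fun σ => ?_, ?_⟩
  · rw [smul_pow']
    suffices ∀ n, (σ • x) ^ q ^ n - x ^ q ^ n ∈ P ^ (n + 1) from
      Ideal.pow_le_pow_right (Nat.le_succ N) (this N)
    intro n
    induction n with
    | zero => simpa using hI σ x
    | succ n ih =>
      rw [pow_succ q, pow_mul, pow_mul, ← geom_sum₂_mul, pow_succ' P (n + 1)]
      refine Ideal.mul_mem_mul ?_ ih
      have hab : Ideal.Quotient.mk P ((σ • x) ^ q ^ n) = Ideal.Quotient.mk P (x ^ q ^ n) :=
        (Ideal.Quotient.mk_eq_mk_iff_sub_mem _ _).2 (Ideal.pow_le_self (Nat.succ_ne_zero n) ih)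
      rw [← Ideal.Quotient.eq_zero_iff_mem, map_sum]
      have hq : ((q : ℕ) : B ⧸ P) = 0 := by
        rw [← map_natCast (Ideal.Quotient.mk P), Ideal.Quotient.eq_zero_iff_mem]
        exact natCard_quotient_mem
      have hterm : ∀ i ∈ Finset.range q,
          Ideal.Quotient.mk P (((σ • x) ^ q ^ n) ^ i * (x ^ q ^ n) ^ (q - 1 - i)) =
            Ideal.Quotient.mk P ((x ^ q ^ n) ^ (q - 1)) := fun i hi => by
        rw [Finset.mem_range] at hi
        rw [map_mul, map_pow, hab, ← map_pow, ← map_mul, ← pow_add,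
          show i + (q - 1 - i) = q - 1 by omega]
      rw [Finset.sum_congr rfl hterm, Finset.sum_const, Finset.card_range, nsmul_eq_mul, hq,
        zero_mul]
  · rw [← Ideal.Quotient.mk_eq_mk_iff_sub_mem, map_pow]
    show _ ^ (Nat.card (B ⧸ P)) ^ N = _
    rw [Nat.card_eq_fintype_card]
    exact FiniteField.pow_card_pow N _

variable {π : B} (hπ : π ∈ P) (hπ' : π ∉ P ^ 2)

include hP hI hπ hπ' in
/-- Digits. -/
theorem exists_digits (M : ℕ) : ∀ (d : ℕ) (x : B), ∃ g : B[X],
    (∀ i, g.coeff i ∈ fixMod I P M) ∧ g.degree < (d : WithBot ℕ) ∧ x - g.eval π ∈ P ^ d := by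
  intro d
  induction d with
  | zero => exact fun x => ⟨0, fun i => by simp [zero_mem], by simp, by simp⟩
  | succ d ih =>
    intro x
    obtain ⟨c, hc, hcx⟩ := exists_fixMod hP hI x M
    obtain ⟨y, w, hw, hy⟩ := exists_mul_add (d := 1) hP hπ'
      (show x - c ∈ P ^ 1 by rw [pow_one, ← neg_sub]; exact neg_mem hcx) (d + 1)
    obtain ⟨g, hg, hdeg, hgy⟩ := ih y
    refine ⟨C c + X * g, fun i => ?_, ?_, ?_⟩
    · rcases i with _ | i
      · simpa using hc
      · simpa [coeff_C] using hg i
    · refine (degree_add_le _ _).trans_lt (max_lt (lt_of_le_of_lt degree_C_le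
        (by exact_mod_cast d.succ_pos)) ?_)
      rcases eq_or_ne g 0 with rfl | hg0
      · simp
      rw [degree_mul, degree_X, degree_eq_natDegree hg0] at *
      norm_cast at *
      omega
    · rw [eval_add, eval_C, eval_mul, eval_X,
        show x - (c + π * g.eval π) = π * (y - g.eval π) + w by linear_combination hy]
      refine add_mem ?_ hw
      rw [pow_succ']
      exact Ideal.mul_mem_mul hπ hgy

include hP hI hπ hπ' in
/-- Moving `π` little moves everything little. -/
theorem smul_sub_mem {σ : I} {m : ℕ} (h : σ • π - π ∈ P ^ m) (x : B) : σ • x - x ∈ P ^ m := by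
  obtain ⟨g, hg, -, hgx⟩ := exists_digits hP hI hπ hπ' m m x
  have h1 : σ • g.eval π - g.eval π ∈ P ^ m := by
    have hπσ : Ideal.Quotient.mk (P ^ m) (σ • π) = Ideal.Quotient.mk (P ^ m) π :=
      (Ideal.Quotient.mk_eq_mk_iff_sub_mem _ _).2 h
    rw [← Ideal.Quotient.mk_eq_mk_iff_sub_mem, Polynomial.eval_eq_sum, Polynomial.sum,
      Finset.smul_sum, map_sum, map_sum]
    refine Finset.sum_congr rfl fun i _ => ?_
    rw [smul_mul', smul_pow', map_mul, map_mul, map_pow, map_pow, hπσ,
      (Ideal.Quotient.mk_eq_mk_iff_sub_mem _ _).2 (hg i σ)]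
  rw [show σ • x - x = σ • (x - g.eval π) - (x - g.eval π) + (σ • g.eval π - g.eval π) by
    rw [smul_sub]; ring]
  exact add_mem (sub_mem (smul_mem_pow hI hgx) hgx) h1

variable [FaithfulSMul I B]

include hP hI hπ hπ' in
/-- A uniformiser is moved by every element other than the identity. -/
theorem smul_uniformiser_ne {σ : I} (hσ : σ ≠ 1) : σ • π ≠ π := fun h => hσ <| by
  refine FaithfulSMul.eq_of_smul_eq_smul (α := B) fun x => ?_
  rw [one_smul, ← sub_eq_zero]
  have hall : σ • x - x ∈ ⨅ k, P ^ k := by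
    rw [Submodule.mem_iInf]
    exact fun k => smul_sub_mem hP hI hπ hπ' (by simp [h]) x
  rwa [Ideal.iInf_pow_eq_bot_of_isDomain _ (Ideal.isPrime_of_prime hP).ne_top, Ideal.mem_bot]
    at hall

include hP hI hπ hπ' in
theorem smul_uniformiser_inj : Function.Injective fun σ : I => σ • π := fun σ τ h => by
  by_contra hne
  exact smul_uniformiser_ne hP hI hπ hπ' (σ := τ⁻¹ * σ) (fun e => hne (inv_mul_eq_one.1 e).symm)
    (by rw [mul_smul, show σ • π = τ • π from h, inv_smul_smul])

variable [Finite I]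

include hP hI hπ hπ' in
/-- The conjugates of `π` are apart. -/
theorem exists_apart : ∃ m, ∀ σ τ : I, σ ≠ τ → σ • π - τ • π ∉ P ^ (m + 1) := by
  have := Fintype.ofFinite I
  refine ⟨Finset.univ.sup fun p : I × I => vP P (p.1 • π - p.2 • π), fun σ τ hne h => ?_⟩
  have h0 : σ • π - τ • π ≠ 0 := sub_ne_zero.2 fun e => hne (smul_uniformiser_inj hP hI hπ hπ' e)
  have h1 := Finset.le_sup (f := fun p : I × I => vP P (p.1 • π - p.2 • π))
    (Finset.mem_univ (σ, τ))
  have h2 := (mem_pow_iff hP h0 _).1 h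
  simp only at h1
  omega

include hP hI hπ hπ' in
/-- **The valuation of an element fixed by `I` is not strictly between `0` and `|I|`.** -/
theorem vP_fixed {b : B} (hb : ∀ σ : I, σ • b = b) {d : ℕ} (hd : 0 < d) (hbd : b ∈ P ^ d)
    (hbd' : b ∉ P ^ (d + 1)) : Nat.card I ≤ d := by
  classical
  by_contra hlt
  have := Fintype.ofFinite I
  obtain ⟨m, hm⟩ := exists_apart hP hI hπ hπ'
  set M := 1 + Fintype.card I * m
  have hiter : ∀ k, ∀ x : B, ∃ g : B[X], (∀ i, g.coeff i ∈ fixMod I P M) ∧
      g.degree < (d : WithBot ℕ) ∧ x - g.eval π ∈ P ^ min k M := by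
    intro k
    induction k with
    | zero => exact fun x => ⟨0, fun i => by simp [zero_mem], by simp, by simp⟩
    | succ k ih =>
      intro x
      obtain ⟨g, hg, hdeg, hgx⟩ := exists_digits hP hI hπ hπ' M d x
      obtain ⟨y, w, hw, hy⟩ := exists_mul_add hP hbd' hgx M
      obtain ⟨g', hg', hdeg', hgy⟩ := ih y
      refine ⟨g + C b * g', fun i => ?_, ?_, ?_⟩
      · rw [coeff_add, coeff_C_mul]
        exact add_mem (hg i) (mul_mem (mem_fixMod_of_fixed hb M) (hg' i))
      · refine (degree_add_le _ _).trans_lt (max_lt hdeg (lt_of_le_of_lt ?_ hdeg'))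
        rw [← smul_eq_C_mul]
        exact degree_smul_le _ _
      · rw [eval_add, eval_mul, eval_C, show x - (g.eval π + b * g'.eval π) =
          b * (y - g'.eval π) + w by linear_combination hy]
        refine add_mem ?_ (Ideal.pow_le_pow_right (min_le_right _ _) hw)
        refine Ideal.pow_le_pow_right (show min (k + 1) M ≤ min k M + 1 by omega) ?_
        rw [pow_succ']
        exact Ideal.mul_mem_mul (Ideal.pow_le_self hd.ne' hbd) hgy
  obtain ⟨g, hg, hdeg, hgx⟩ := hiter M (π ^ d)
  rw [min_self] at hgx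
  set h : B[X] := X ^ d - g with hh
  have hev : ∀ a ∈ Finset.univ.image (fun σ : I => σ • π),
      h.eval a ∈ P ^ (1 + (Finset.univ.image (fun σ : I => σ • π)).card * m) := fun a ha => by
    obtain ⟨σ, -, rfl⟩ := Finset.mem_image.1 ha
    rw [Finset.card_image_of_injective _ (smul_uniformiser_inj hP hI hπ hπ'), Finset.card_univ]
    have hσ := smul_mem_pow hI (σ := σ) hgx
    have hgσ : σ • g.eval π - g.eval (σ • π) ∈ P ^ M := by
      rw [← Ideal.Quotient.mk_eq_mk_iff_sub_mem, Polynomial.eval_eq_sum, Polynomial.eval_eq_sum,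
        Polynomial.sum, Polynomial.sum, Finset.smul_sum, map_sum, map_sum]
      refine Finset.sum_congr rfl fun i _ => ?_
      rw [smul_mul', smul_pow', map_mul, map_mul,
        (Ideal.Quotient.mk_eq_mk_iff_sub_mem _ _).2 (hg i σ)]
    rw [hh, eval_sub, eval_pow, eval_X]
    rw [smul_sub, smul_pow'] at hσ
    simpa using add_mem hσ hgσ
  obtain ⟨q, hq⟩ := exists_factor hP (m := m) _ (fun a ha a' ha' hne => by
    obtain ⟨σ, -, rfl⟩ := Finset.mem_image.1 ha
    obtain ⟨τ, -, rfl⟩ := Finset.mem_image.1 ha'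
    exact hm σ τ fun e => hne (by rw [e])) h 1 hev
  rw [pow_one, Ideal.mem_map_C_iff] at hq
  -- compare degrees modulo `P`
  have : P.IsPrime := Ideal.isPrime_of_prime hP
  set φ := Polynomial.mapRingHom (Ideal.Quotient.mk P)
  have h0 : φ h = φ (∏ a ∈ Finset.univ.image (fun σ : I => σ • π), (X - C a)) * φ q := by
    rw [← map_mul, ← sub_eq_zero, ← map_sub]
    ext i
    rw [coe_mapRingHom, coeff_map, coeff_zero, Ideal.Quotient.eq_zero_iff_mem]
    exact hq i
  have hmon : (h.map (Ideal.Quotient.mk P)).natDegree = d ∧ h.map (Ideal.Quotient.mk P) ≠ 0 := by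
    have hmh : h.Monic := monic_X_pow_sub hdeg
    refine ⟨?_, (hmh.map _).ne_zero⟩
    rw [hmh.natDegree_map, hh, natDegree_sub_eq_left_of_natDegree_lt, natDegree_X_pow]
    rw [natDegree_X_pow]
    rcases eq_or_ne g 0 with rfl | hg0
    · simpa using hd
    · exact (natDegree_lt_iff_degree_lt hg0).2 hdeg
  rw [coe_mapRingHom] at h0
  have hfm : ((∏ a ∈ Finset.univ.image (fun σ : I => σ • π), (X - C a)).map
      (Ideal.Quotient.mk P)).natDegree = Fintype.card I := by
    rw [(monic_prod_of_monic _ _ fun a _ => monic_X_sub_C a).natDegree_map,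
      natDegree_prod_of_monic _ _ fun a _ => monic_X_sub_C a]
    simp [Finset.card_image_of_injective _ (smul_uniformiser_inj hP hI hπ hπ')]
  have hne := hmon.2
  rw [h0] at hne
  obtain ⟨hf0, hq0⟩ := mul_ne_zero_iff.1 hne
  have hd' := hmon.1
  rw [h0, natDegree_mul hf0 hq0, hfm] at hd'
  rw [Nat.card_eq_fintype_card] at hlt
  omega

include hP hI hπ hπ' in
/-- **Herbrand's inequality**: the product of `π - s τ π`, `τ ∈ H`, divides `s z - z` at `P` for
every `z` fixed by `H`. -/
theorem sum_vP_le (H : Subgroup I) [Fintype H] {z : B} (hz : ∀ τ : H, (τ : I) • z = z) (s : I)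
    (hs : s ∉ H) (hsz : s • z ≠ z) :
    ∑ τ : H, vP P (π - (s * τ) • π) ≤ vP P (s • z - z) := by
  classical
  obtain ⟨m, hm⟩ := exists_apart hP hI hπ hπ'
  set S := Finset.univ.image fun τ : H => (τ : I) • π
  have hinj : Function.Injective fun τ : H => (τ : I) • π := fun a b h =>
    Subtype.ext (smul_uniformiser_inj hP hI hπ hπ' h)
  set N := vP P (s • z - z) + 1
  set M := N + Fintype.card H * m
  obtain ⟨g, hg, -, hgx⟩ := exists_digits hP hI hπ hπ' M M z
  have hgσ : ∀ σ : I, σ • g.eval π - g.eval (σ • π) ∈ P ^ M := fun σ => by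
    rw [← Ideal.Quotient.mk_eq_mk_iff_sub_mem, Polynomial.eval_eq_sum, Polynomial.eval_eq_sum,
      Polynomial.sum, Polynomial.sum, Finset.smul_sum, map_sum, map_sum]
    refine Finset.sum_congr rfl fun i _ => ?_
    rw [smul_mul', smul_pow', map_mul, map_mul,
      (Ideal.Quotient.mk_eq_mk_iff_sub_mem _ _).2 (hg i σ)]
  obtain ⟨q, hq⟩ := exists_factor hP (m := m) S (fun a ha a' ha' hne => by
    obtain ⟨σ, -, rfl⟩ := Finset.mem_image.1 ha
    obtain ⟨τ, -, rfl⟩ := Finset.mem_image.1 ha'
    exact hm σ τ fun e => hne (by rw [e])) (g - C z) N fun a ha => by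
      obtain ⟨τ, -, rfl⟩ := Finset.mem_image.1 ha
      rw [Finset.card_image_of_injective _ hinj, Finset.card_univ, eval_sub, eval_C]
      have h := smul_mem_pow hI (σ := (τ : I)) hgx
      rw [smul_sub, hz τ] at h
      rw [show g.eval ((τ : I) • π) - z =
        -((z - (τ : I) • g.eval π) + ((τ : I) • g.eval π - g.eval ((τ : I) • π))) by ring]
      exact neg_mem (add_mem h (hgσ τ))
  -- apply `s` to the coefficients and evaluate at `π`
  let φ := MulSemiringAction.toRingHom I B s
  have hq' : ((g - C z - (∏ a ∈ S, (X - C a)) * q).map φ).eval π ∈ P ^ N := by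
    rw [Polynomial.eval_map, Polynomial.eval₂_eq_sum, Polynomial.sum]
    refine Submodule.sum_mem _ fun i _ => Ideal.mul_mem_right _ _ ?_
    exact smul_mem_pow hI (Ideal.mem_map_C_iff.1 hq i)
  simp only [Polynomial.map_sub, Polynomial.map_mul, Polynomial.map_prod, map_X, map_C, eval_sub,
    eval_mul, eval_prod, eval_X, eval_C] at hq'
  have hgs : (g.map φ).eval π - g.eval π ∈ P ^ M := by
    rw [Polynomial.eval_map, Polynomial.eval₂_eq_sum, Polynomial.eval_eq_sum, Polynomial.sum,
      Polynomial.sum, ← Finset.sum_sub_distrib]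
    exact Submodule.sum_mem _ fun i _ => by
      rw [← sub_mul]; exact Ideal.mul_mem_right _ _ (hg i s)
  set f := ∏ a ∈ S, (π - φ a)
  have hMN : P ^ M ≤ P ^ N := Ideal.pow_le_pow_right (Nat.le_add_right _ _)
  have hmain : (s • z - z) + f * (q.map φ).eval π ∈ P ^ N := by
    have h := sub_mem (sub_mem (hMN hgs) (hMN hgx)) hq'
    convert h using 1
    simp only [φ, f, MulSemiringAction.toRingHom_apply]
    ring
  have hf : f = ∏ τ : H, (π - (s * τ) • π) := by
    rw [show f = ∏ a ∈ S, (π - φ a) from rfl, Finset.prod_image hinj.injOn]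
    exact Finset.prod_congr rfl fun τ _ => by simp [φ, mul_smul]
  have hf0 : ∀ τ : H, π - (s * τ) • π ≠ 0 := fun τ => sub_ne_zero.2 fun e => hs (by
    have he : s * (τ : I) = 1 := by
      by_contra hne
      exact smul_uniformiser_ne hP hI hπ hπ' hne e.symm
    rw [eq_inv_of_mul_eq_one_left he]
    exact H.inv_mem τ.2)
  rw [← vP_prod hP _ _ fun τ _ => hf0 τ, ← hf]
  have hf' : f ≠ 0 := by rw [hf]; exact Finset.prod_ne_zero_iff.2 fun τ _ => hf0 τ
  by_contra hlt
  have hfN : f ∈ P ^ N := (mem_pow_iff hP hf' N).2 (by omega)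
  have := (mem_pow_iff hP (sub_ne_zero.2 hsz) N).1 (by
    simpa using sub_mem hmain (Ideal.mul_mem_right ((q.map φ).eval π) _ hfN))
  omega

end FA.TateTwo

end
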