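import Fermat.Agent.TateTwo.Different
import Fermat.Agent.Faltings.Hermite
import Mathlib.Analysis.Real.Pi.Bounds
import Mathlib.Analysis.Complex.ExponentialBounds
import Mathlib.Analysis.SpecialFunctions.Stirling

/-!
# Tate's theorem, discriminant form

A Galois extension of `ℚ` unramified outside `2` whose group embeds into `GL₂` of a field of
characteristic two, and has no character with values in that field, has exponent two: otherwise the
exponent of `2` in the discriminant is too small for Minkowski's bound.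
-/

set_option autoImplicit false
set_option linter.unusedSectionVars false

noncomputable section

open NumberField Module
open scoped Pointwise

namespace FA.TateTwo

theorem log_factorial_le {n : ℕ} (hn : 1 ≤ n) :
    Real.log n.factorial ≤ 1 + Real.log n / 2 + (n * Real.log n - n) := by
  obtain ⟨m, rfl⟩ : ∃ m, n = m + 1 := ⟨n - 1, by omega⟩
  have h := Stirling.log_stirlingSeq'_antitone (Nat.zero_le m)
  simp only [Function.comp, Nat.succ_eq_add_one, zero_add] at h
  rw [Stirling.log_stirlingSeq_formula, Stirling.log_stirlingSeq_formula] at h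
  simp only [Nat.factorial_one, Nat.cast_one, Real.log_one, one_mul, mul_one] at h
  have hm : (0 : ℝ) < (m + 1 : ℕ) := by positivity
  rw [Real.log_mul two_ne_zero hm.ne', Real.log_div hm.ne' (Real.exp_ne_zero 1),
    Real.log_div one_ne_zero (Real.exp_ne_zero 1), Real.log_one, Real.log_exp] at h
  linarith

theorem log_four_div_pi : Real.log (4 / Real.pi) ≤ 0.258 := by
  have hpi := Real.pi_gt_d2
  have h0 : (0 : ℝ) < 4 / Real.pi := by positivity
  have h1 : 4 / Real.pi ≤ (1.129 : ℝ) ^ 2 := by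
    rw [div_le_iff₀ Real.pi_pos]
    nlinarith
  have h2 := Real.log_le_log h0 h1
  rw [Real.log_pow] at h2
  have h3 := Real.log_le_sub_one_of_pos (show (0 : ℝ) < 1.129 by norm_num)
  push_cast at h2
  linarith

variable (K : Type*) [Field K] [NumberField K]

/-- Minkowski's bound in logarithmic form. -/
theorem log_abs_discr_ge : (finrank ℚ K : ℝ) * (2 - 0.258) - 2 - Real.log (finrank ℚ K) ≤
    Real.log |(discr K : ℝ)| := by
  set n := finrank ℚ K
  have hn : 1 ≤ n := Module.finrank_pos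
  have hn0 : (0 : ℝ) < n := by exact_mod_cast hn
  have h := abs_discr_ge' K
  rw [Int.cast_abs] at h
  have hr : 2 * InfinitePlace.nrComplexPlaces K ≤ n := by
    show _ ≤ finrank ℚ K
    rw [← InfinitePlace.card_add_two_mul_card_eq_rank K]
    omega
  have hb : 1 ≤ 4 / Real.pi := (one_le_div Real.pi_pos).2 Real.pi_le_four
  have hfac : (0 : ℝ) < n.factorial := by exact_mod_cast n.factorial_pos
  have hlog := Real.log_le_log (by positivity) h
  rw [Real.log_div (by positivity) (by positivity), Real.log_pow,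
    Real.log_mul (by positivity) (by positivity), Real.log_pow, Real.log_pow] at hlog
  have h1 : ((2 * InfinitePlace.nrComplexPlaces K : ℕ) : ℝ) * Real.log (4 / Real.pi) ≤
      (n : ℝ) * 0.258 :=
    mul_le_mul (by exact_mod_cast hr) log_four_div_pi (Real.log_nonneg hb) hn0.le
  have h2 := log_factorial_le hn
  push_cast at hlog h1
  linarith

theorem numeric_tame {n : ℕ} (hn : 3 ≤ n)
    (h : (n : ℝ) * (2 - 0.258) - 2 - Real.log n ≤ (n : ℝ) * Real.log 2) : False := by
  have hn' : (3 : ℝ) ≤ n := by exact_mod_cast hn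
  have h1 := Real.log_le_sub_one_of_pos (show (0 : ℝ) < (n : ℝ) / 4 by linarith)
  rw [Real.log_div (by linarith) (by norm_num), show (4 : ℝ) = 2 ^ 2 by norm_num,
    Real.log_pow] at h1
  push_cast at h1
  have := Real.log_two_lt_d9
  nlinarith

theorem numeric_wild {n e : ℕ} (he : 2 ≤ e) (hn : e * (e + 1) ≤ n)
    (h : (n : ℝ) * (2 - 0.258) - 2 - Real.log n ≤
      (n : ℝ) * (2.5 - 2 / e) * Real.log 2) : False := by
  have he' : (2 : ℝ) ≤ e := by exact_mod_cast he
  have he0 : (0 : ℝ) < e := by linarith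
  set n₀ : ℝ := (e : ℝ) * (e + 1) with hn₀
  have hn0 : n₀ ≤ n := by rw [hn₀]; exact_mod_cast hn
  have hn₀pos : 0 < n₀ := by positivity
  have hln : Real.log n ≤ Real.log n₀ + ((n : ℝ) / n₀ - 1) := by
    have := Real.log_le_sub_one_of_pos (show 0 < (n : ℝ) / n₀ from div_pos (by linarith) hn₀pos)
    rw [Real.log_div (by linarith) hn₀pos.ne'] at this
    linarith
  have hle : Real.log (e : ℝ) ≤ Real.log 2 + ((e : ℝ) / 2 - 1) := by
    have := Real.log_le_sub_one_of_pos (show (0 : ℝ) < (e : ℝ) / 2 by linarith)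
    rw [Real.log_div he0.ne' two_ne_zero] at this
    linarith
  have hle1 : Real.log ((e : ℝ) + 1) ≤ 2 * Real.log 2 + (((e : ℝ) + 1) / 4 - 1) := by
    have := Real.log_le_sub_one_of_pos (show (0 : ℝ) < ((e : ℝ) + 1) / 4 by linarith)
    rw [Real.log_div (by linarith) (by norm_num), show (4 : ℝ) = 2 ^ 2 by norm_num,
      Real.log_pow] at this
    push_cast at this
    linarith
  have hl := Real.log_two_lt_d9
  have hl' := Real.log_two_gt_d9
  rw [hn₀, Real.log_mul he0.ne' (by linarith), ← hn₀] at hln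
  -- clear the denominators
  have hA : (n : ℝ) * (2 * Real.log 2 / e) ≤ 2 + Real.log n := by
    have : (n : ℝ) * (2.5 - 2 / e) * Real.log 2 =
        (n : ℝ) * (2.5 * Real.log 2) - n * (2 * Real.log 2 / e) := by ring
    nlinarith
  have hB : (n : ℝ) / n₀ * ((e : ℝ) + 1) * (2 * Real.log 2) =
      (n : ℝ) * (2 * Real.log 2 / e) := by
    rw [hn₀]
    field_simp
  set r := (n : ℝ) / n₀
  have hr : 1 ≤ r := (one_le_div hn₀pos).2 hn0
  nlinarith [mul_le_mul_of_nonneg_left hr
    (show (0 : ℝ) ≤ ((e : ℝ) + 1) * (2 * Real.log 2) - 1 by nlinarith)]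

variable {K} [IsGalois ℚ K]

/-- The exponent of `2` in the discriminant. -/
theorem log_abs_discr_le
    (hodd : ∀ (q : ℕ) (Q : Ideal (𝓞 K)) [Q.IsMaximal], q.Prime → q ≠ 2 → (q : 𝓞 K) ∈ Q →
      Algebra.IsUnramifiedAt ℤ Q)
    (P : Ideal (𝓞 K)) [P.IsMaximal] (h2 : (2 : 𝓞 K) ∈ P) {D : ℕ}
    (hD : ∀ k, P ^ k ∣ differentIdeal ℤ (𝓞 K) → k ≤ D) :
    (vP P (2 : 𝓞 K) : ℝ) * Real.log |(discr K : ℝ)| ≤
      D * (finrank ℚ K * Real.log 2) := by
  classical
  set e := vP P (2 : 𝓞 K) with he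
  set 𝔇 := differentIdeal ℤ (𝓞 K)
  have h2' : Ideal.span {(2 : 𝓞 K)} ≠ ⊥ := by
    rw [Ne, Ideal.span_singleton_eq_bot]; exact two_ne_zero
  have hinv : ∀ τ : K ≃ₐ[ℚ] K, τ • Ideal.span {(2 : 𝓞 K)} = Ideal.span {(2 : 𝓞 K)} := by
    intro τ
    rw [Ideal.pointwise_smul_def, Ideal.map_span, Set.image_singleton, map_ofNat]
  have hcount : ∀ {I Q : Ideal (𝓞 K)}, Prime Q → I ≠ ⊥ → ∀ j : ℕ,
      (j ≤ (UniqueFactorizationMonoid.normalizedFactors I).count Q ↔ Q ^ j ∣ I) := by
    intro I Q hQ hI j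
    rw [UniqueFactorizationMonoid.dvd_iff_normalizedFactors_le_normalizedFactors
        (pow_ne_zero j hQ.ne_zero) hI, UniqueFactorizationMonoid.normalizedFactors_pow,
      UniqueFactorizationMonoid.normalizedFactors_irreducible hQ.irreducible, normalize_eq,
      Multiset.nsmul_singleton, ← Multiset.le_count_iff_replicate_le]
  have hdvd : 𝔇 ^ e ∣ Ideal.span {(2 : 𝓞 K)} ^ D := by
    refine (UniqueFactorizationMonoid.dvd_iff_normalizedFactors_le_normalizedFactors
      (pow_ne_zero _ differentIdeal_ne_bot) (pow_ne_zero _ h2')).mpr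
        (Multiset.le_iff_count.mpr fun Q => ?_)
    rw [UniqueFactorizationMonoid.normalizedFactors_pow,
      UniqueFactorizationMonoid.normalizedFactors_pow, Multiset.count_nsmul, Multiset.count_nsmul]
    set k := (UniqueFactorizationMonoid.normalizedFactors 𝔇).count Q
    rcases Nat.eq_zero_or_pos k with h0 | h0
    · rw [h0, mul_zero]; exact Nat.zero_le _
    have hQmem := Multiset.count_pos.mp h0
    have hQp : Prime Q := UniqueFactorizationMonoid.prime_of_normalized_factor Q hQmem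
    have hQmax : Q.IsMaximal := (Ideal.isPrime_of_prime hQp).isMaximal hQp.ne_zero
    obtain ⟨q, hq, hqQ⟩ : ∃ q : ℕ, q.Prime ∧ (q : 𝓞 K) ∈ Q := by
      let := Ideal.Quotient.field Q
      have : Finite (𝓞 K ⧸ Q) := Ideal.finiteQuotientOfFreeOfNeBot Q hQp.ne_zero
      refine ⟨ringChar (𝓞 K ⧸ Q), CharP.char_is_prime (𝓞 K ⧸ Q) _, ?_⟩
      rw [← Ideal.Quotient.eq_zero_iff_mem, map_natCast]
      exact CharP.cast_eq_zero _ _
    have hq2 : q = 2 := by
      by_contra hne
      exact not_dvd_differentIdeal_iff.mpr (hodd q Q hq hne hqQ)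
        (UniqueFactorizationMonoid.dvd_of_mem_normalizedFactors hQmem)
    subst hq2
    have h2P : ((2 : ℕ) : 𝓞 K) ∈ P := by simpa using h2
    have hkD : k ≤ D := hD k (Faltings.pow_dvd_of_pow_dvd hq hqQ h2P
      (Faltings.smul_differentIdeal K) ((hcount hQp differentIdeal_ne_bot k).mp le_rfl))
    have hPe : P ^ e ∣ Ideal.span {(2 : 𝓞 K)} :=
      Ideal.dvd_span_singleton.2 ((mem_pow_iff (prime_over_two P h2) two_ne_zero e).2 le_rfl)
    calc e * k ≤ e * D := Nat.mul_le_mul_left e hkD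
      _ ≤ D * _ := by
        rw [mul_comm]
        exact Nat.mul_le_mul_left D ((hcount hQp h2' e).mpr
          (Faltings.pow_dvd_of_pow_dvd hq h2P hqQ hinv hPe))
  have h := Ideal.absNorm_dvd_absNorm_of_le (Ideal.le_of_dvd hdvd)
  rw [map_pow, map_pow, NumberField.absNorm_differentIdeal K (𝓞 K), Ideal.absNorm_span_singleton,
    show (2 : 𝓞 K) = algebraMap ℤ (𝓞 K) 2 by simp, Algebra.norm_algebraMap,
    Int.natAbs_pow, show Int.natAbs 2 = 2 from rfl, RingOfIntegers.rank, ← pow_mul] at h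
  have hne : (discr K).natAbs ≠ 0 := Int.natAbs_ne_zero.mpr (discr_ne_zero K)
  have hle : (((discr K).natAbs : ℝ)) ^ e ≤ (2 : ℝ) ^ (finrank ℚ K * D) := by
    exact_mod_cast Nat.le_of_dvd (pow_pos two_pos _) h
  have h' := Real.log_le_log (pow_pos (by exact_mod_cast Nat.pos_of_ne_zero hne) _) hle
  rw [Real.log_pow, Real.log_pow, Nat.cast_mul, Nat.cast_natAbs, Int.cast_abs] at h'
  linarith

variable {F : Type*} [Field F] [CharP F 2]

open Matrix

/-- **Tate's theorem** for the Galois group of a number field. -/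
theorem sq_eq_one_of_unramified
    (hodd : ∀ (q : ℕ) (Q : Ideal (𝓞 K)) [Q.IsMaximal], q.Prime → q ≠ 2 → (q : 𝓞 K) ∈ Q →
      Algebra.IsUnramifiedAt ℤ Q)
    (P : Ideal (𝓞 K)) [P.IsMaximal] (h2 : (2 : 𝓞 K) ∈ P)
    (ρ : (K ≃ₐ[ℚ] K) →* GL (Fin 2) F) (hρ : Function.Injective ρ)
    (hχ : ∀ χ : (K ≃ₐ[ℚ] K) →* Fˣ, χ = 1) (g : K ≃ₐ[ℚ] K) : ρ g ^ 2 = 1 := by
  classical
  by_contra hg
  have hdet : ∀ σ, (ρ σ : Matrix (Fin 2) (Fin 2) F).det = 1 := fun σ => by
    have h := DFunLike.congr_fun (hχ (GeneralLinearGroup.det.comp ρ)) σ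
    exact congrArg Units.val h
  set n := finrank ℚ K
  have hn : Nat.card (K ≃ₐ[ℚ] K) = n := IsGalois.card_aut_eq_finrank ℚ K
  have hn3 : 3 ≤ n := by
    by_contra hlt
    have hpos : 1 ≤ n := Module.finrank_pos
    have hdvd : n ∣ 2 := by interval_cases n <;> norm_num
    exact hg (by rw [← map_pow, orderOf_dvd_iff_pow_eq_one.1
      ((orderOf_dvd_natCard g).trans (hn ▸ hdvd)), map_one])
  obtain ⟨π, hπ, hπ'⟩ := exists_uniformiser P h2
  have hmink := log_abs_discr_ge K
  have hdisc := log_abs_discr_le hodd P h2 (D := moves P π)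
    fun k hk => different_le P h2 hπ hπ' hk
  have hmoves := card_inertia P h2
  set e := Nat.card (P.inertia (K ≃ₐ[ℚ] K)) with he
  rw [← hmoves] at hdisc
  have he1 : 1 ≤ e := Nat.card_pos
  have heR : (0 : ℝ) < e := by exact_mod_cast he1
  have hl2 : (0 : ℝ) ≤ Real.log 2 := (Real.log_pos one_lt_two).le
  by_cases hW : wild P = ⊥
  · -- tame inertia
    have hD := moves_of_tame P h2 hW hπ hπ'
    refine numeric_tame hn3 (hmink.trans (le_of_mul_le_mul_left (hdisc.trans ?_) heR))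
    refine mul_le_mul_of_nonneg_right ?_ (mul_nonneg (Nat.cast_nonneg _) hl2)
    exact_mod_cast (show moves P π ≤ e by omega)
  -- wild inertia
  obtain ⟨hWI, v, hv, hfix⟩ := inertia_of_wild P h2 ρ hρ hdet hW
  have hsq : ∀ σ ∈ P.inertia (K ≃ₐ[ℚ] K), σ * σ = 1 := fun σ hσ => hρ (by
    rw [map_mul, ← sq, wild_sq P h2 ρ (hWI ▸ hσ), map_one])
  have he2 : 2 ≤ e := by
    by_contra hlt
    refine hW (eq_bot_iff.2 fun σ hσ => ?_)
    have := Subgroup.eq_bot_of_card_eq (P.inertia (K ≃ₐ[ℚ] K)) (show e = 1 by omega)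
    exact this ▸ wild_le P hσ
  -- the stabiliser of the line
  let S : Subgroup (K ≃ₐ[ℚ] K) :=
    { carrier := {σ | ∃ c : F, (ρ σ : Matrix (Fin 2) (Fin 2) F) *ᵥ v = c • v}
      one_mem' := ⟨1, by rw [map_one, Units.val_one, one_mulVec, one_smul]⟩
      mul_mem' := fun {a b} ha hb => by
        obtain ⟨c, hc⟩ := ha
        obtain ⟨d, hd⟩ := hb
        exact ⟨d * c, by rw [map_mul, Units.val_mul, ← mulVec_mulVec, hd, mulVec_smul, hc,
          smul_smul]⟩
      inv_mem' := fun {a} ha => by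
        obtain ⟨c, hc⟩ := ha
        have h1 : (ρ a⁻¹ : Matrix (Fin 2) (Fin 2) F) *ᵥ (c • v) = v := by
          rw [← hc, mulVec_mulVec, ← Units.val_mul, ← map_mul, inv_mul_cancel, map_one,
            Units.val_one, one_mulVec]
        rw [mulVec_smul] at h1
        have hc0 : c ≠ 0 := fun e => hv (by rw [← h1, e, zero_smul])
        exact ⟨c⁻¹, by rw [← smul_right_inj hc0, h1, smul_smul, mul_inv_cancel₀ hc0, one_smul]⟩ }
  obtain ⟨t, ht⟩ : ∃ t, t ∉ S := by
    by_contra! hall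
    obtain ⟨χ, hχv⟩ := exists_char ρ hv hall
    refine hg (Units.ext ?_)
    rw [Units.val_pow_eq_pow_val, Units.val_one, sq_eq_one_of_det (hdet g) hv (by
      rw [hχv, hχ χ, MonoidHom.one_apply, Units.val_one, one_smul])]
  have hIS : P.inertia (K ≃ₐ[ℚ] K) ≤ S := fun σ hσ => ⟨1, by rw [hfix σ hσ, one_smul]⟩
  have hline : ∀ u ∈ P.inertia (K ≃ₐ[ℚ] K), t⁻¹ * u * t ∈ S → u = 1 := by
    intro u hu ⟨c, hc⟩
    by_contra hu1
    have hu2 : (ρ u : Matrix (Fin 2) (Fin 2) F) ^ 2 = 1 := by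
      rw [← Units.val_pow_eq_pow_val, sq, ← map_mul, hsq u hu, map_one, Units.val_one]
    obtain ⟨v₀, -, -, hline₀⟩ :=
      exists_fixed_line (fun e => hu1 (hρ ((map_one ρ).symm ▸ Units.ext e))) hu2
    set w := (ρ t : Matrix (Fin 2) (Fin 2) F) *ᵥ v
    have hw : (ρ u : Matrix (Fin 2) (Fin 2) F) *ᵥ w = c • w := by
      have h := congrArg ((ρ t : Matrix (Fin 2) (Fin 2) F) *ᵥ ·) hc
      simpa [w, mulVec_mulVec, mulVec_smul, ← Units.val_mul, ← map_mul, ← mul_assoc] using h
    have hw0 : w ≠ 0 := fun e => hv <| by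
      have h := congrArg ((ρ t⁻¹ : Matrix (Fin 2) (Fin 2) F) *ᵥ ·) e
      simpa [w, mulVec_mulVec, ← Units.val_mul, ← map_mul] using h
    have hc1 : c = 1 := by
      refine eq_one_of_pow_two_pow (k := 1) (smul_left_injective F hw0 ?_)
      simp only [pow_one]
      rw [sq, ← smul_smul, ← hw, ← mulVec_smul, ← hw, mulVec_mulVec, ← sq, hu2, one_mulVec,
        one_smul]
    obtain ⟨a, ha⟩ := hline₀ w (by rw [hw, hc1, one_smul])
    obtain ⟨b, hb⟩ := hline₀ v (hfix u hu)
    have hb0 : b ≠ 0 := fun e => hv (by rw [hb, e, zero_smul])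
    exact ht ⟨a / b, by
      show w = _
      rw [ha, hb, smul_smul, div_mul_cancel₀ a hb0]⟩
  have hcount : e * (e + 1) ≤ n := by
    let f : (P.inertia (K ≃ₐ[ℚ] K) × S) ⊕ S → (K ≃ₐ[ℚ] K) :=
      Sum.elim (fun p => p.1.1 * t * p.2.1) (fun s => s.1)
    have hf : Function.Injective f := by
      refine Function.Injective.sumElim (fun p p' hpp => ?_) Subtype.val_injective fun p s hps => ?_
      · have hpp' : p.1.1 * t * p.2.1 = p'.1.1 * t * p'.2.1 := hpp
        have h1 : t⁻¹ * (p'.1.1⁻¹ * p.1.1) * t = p'.2.1 * p.2.1⁻¹ := by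
          rw [eq_mul_inv_iff_mul_eq, show t⁻¹ * (p'.1.1⁻¹ * p.1.1) * t * p.2.1 =
            t⁻¹ * (p'.1.1⁻¹ * (p.1.1 * t * p.2.1)) by group, hpp']
          group
        have hu := hline _ (mul_mem (inv_mem p'.1.2) p.1.2)
          (h1 ▸ mul_mem p'.2.2 (inv_mem p.2.2))
        have he1 : p'.1.1 = p.1.1 := inv_mul_eq_one.1 hu
        rw [he1, mul_right_inj] at hpp'
        exact Prod.ext (Subtype.ext he1.symm) (Subtype.ext hpp')
      · have hps' : p.1.1 * t * p.2.1 = s.1 := hps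
        refine ht ?_
        rw [show t = p.1.1⁻¹ * (p.1.1 * t * p.2.1) * p.2.1⁻¹ by group, hps']
        exact mul_mem (mul_mem (inv_mem (hIS p.1.2)) s.2) (inv_mem p.2.2)
    have h := Nat.card_le_card_of_injective f hf
    rw [Nat.card_sum, Nat.card_prod, hn] at h
    have hS : e ≤ Nat.card S := Nat.le_of_dvd Nat.card_pos (Subgroup.card_dvd_of_le hIS)
    calc e * (e + 1) ≤ Nat.card S * (e + 1) := Nat.mul_le_mul_right _ hS
      _ = e * Nat.card S + Nat.card S := by ring
      _ ≤ n := h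
  have hD := moves_of_sq P h2 hsq hπ hπ'
  refine numeric_wild he2 hcount (hmink.trans (le_of_mul_le_mul_left (hdisc.trans ?_) heR))
  have hDR : 2 * (moves P π : ℝ) + 4 ≤ 5 * e := by exact_mod_cast hD
  rw [show (e : ℝ) * ((n : ℝ) * (2.5 - 2 / e) * Real.log 2) =
    (2.5 * e - 2) * ((n : ℝ) * Real.log 2) by field_simp]
  exact mul_le_mul_of_nonneg_right (by linarith) (mul_nonneg (Nat.cast_nonneg _) hl2)

end FA.TateTwo

end
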