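import Fermat.Agent.TateTwo.Inertia
import Mathlib.FieldTheory.PrimitiveElement
import Mathlib.LinearAlgebra.LinearIndependent.Basic
import Mathlib.FieldTheory.Fixed
import Mathlib.GroupTheory.FiniteAbelian.Duality
import Mathlib.RingTheory.RootsOfUnity.EnoughRootsOfUnity

/-!
# The different at two

The exponent of the different at a prime `P` over `2` is at most the sum of the valuations of
`π - σ π` over the inertia elements `σ ≠ 1`. Each of these is one if inertia is tame. If inertia has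
exponent two and order `e`, then Herbrand's inequality applied to the quadratic Kummer generators
shows that twice the sum is at most `5 e - 4`.
-/

set_option autoImplicit false
set_option linter.unusedSectionVars false

noncomputable section

open NumberField Polynomial
open scoped Pointwise IntermediateField

namespace FA.TateTwo

variable {B : Type*} [CommRing B] [IsDedekindDomain B] {P : Ideal B} (hP : Prime P)

include hP in
theorem vP_eq_zero {x : B} (hx : x ∉ P) : vP P x = 0 :=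
  (vP_eq hP (k := 0) (by simp) (by simpa using hx)).2

include hP in
theorem vP_congr {a b : B} {N : ℕ} (h : a - b ∈ P ^ N) (hb : b ≠ 0) (hN : vP P b < N) :
    a ≠ 0 ∧ vP P a = vP P b := by
  refine vP_eq hP ?_ fun ha => ?_
  · simpa using add_mem (Ideal.pow_le_pow_right hN.le h) ((mem_pow_iff hP hb _).2 le_rfl)
  · have := (mem_pow_iff hP hb _).1
      (show b ∈ P ^ (vP P b + 1) by
        simpa using sub_mem ha (Ideal.pow_le_pow_right (by omega) h))
    omega

variable {K : Type*} [Field K] [NumberField K] [IsGalois ℚ K]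
variable (P : Ideal (𝓞 K)) [P.IsMaximal] (h2 : (2 : 𝓞 K) ∈ P)

/-- The sum of the valuations of `π - σ π`. -/
def moves (π : 𝓞 K) : ℕ :=
  open scoped Classical in
  ∑ σ ∈ Finset.univ.erase (1 : P.inertia (K ≃ₐ[ℚ] K)), vP P (π - σ • π)

include h2 in
theorem exists_residue_generator (N : ℕ) : ∃ ω : 𝓞 K, ω ∉ P ∧
    (∀ σ ∈ P.inertia (K ≃ₐ[ℚ] K), σ • ω - ω ∈ P ^ N) ∧
    ∀ x : 𝓞 K, x ∉ P → ∃ k : ℕ, x - ω ^ k ∈ P := by
  let := Ideal.Quotient.field P
  have := finite_residue P h2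
  obtain ⟨g, hg⟩ := IsCyclic.exists_generator (α := (𝓞 K ⧸ P)ˣ)
  obtain ⟨w, hw⟩ := Ideal.Quotient.mk_surjective (g : 𝓞 K ⧸ P)
  obtain ⟨ω, hω, hωw⟩ := exists_fixMod (prime_over_two P h2) (I := P.inertia (K ≃ₐ[ℚ] K))
    (fun σ x => σ.2 x) w N
  have hmk : Ideal.Quotient.mk P ω = g := by
    rw [← hw, Ideal.Quotient.mk_eq_mk_iff_sub_mem]; exact hωw
  refine ⟨ω, fun h => g.ne_zero (by rw [← hmk]; exact Ideal.Quotient.eq_zero_iff_mem.2 h),
    fun σ hσ => hω ⟨σ, hσ⟩, fun x hx => ?_⟩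
  have hx0 : Ideal.Quotient.mk P x ≠ 0 := fun h => hx (Ideal.Quotient.eq_zero_iff_mem.1 h)
  obtain ⟨k, hk⟩ := mem_powers_iff_mem_zpowers.2 (hg (Units.mk0 _ hx0))
  refine ⟨k, ?_⟩
  rw [← Ideal.Quotient.mk_eq_mk_iff_sub_mem, map_pow, hmk, ← Units.val_pow_eq_pow_val,
    show g ^ k = Units.mk0 _ hx0 from hk, Units.val_mk0]

include h2 in
/-- **The different is bounded by the movement of a uniformiser.** -/
theorem different_le {π : 𝓞 K} (hπ : π ∈ P) (hπ' : π ∉ P ^ 2) {k : ℕ}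
    (hk : P ^ k ∣ differentIdeal ℤ (𝓞 K)) : k ≤ moves P π := by
  classical
  have hP := prime_over_two P h2
  have := finite_residue P h2
  have := faithfulSMul_subgroup (P.inertia (K ≃ₐ[ℚ] K))
  set N := moves P π + 1
  obtain ⟨ω, hω, hωfix, hωgen⟩ := exists_residue_generator P h2 N
  set J : Ideal (𝓞 K) := ∏ σ ∈ Finset.univ.filter fun σ : K ≃ₐ[ℚ] K => σ • P ≠ P, σ • P
  have hJ : ¬ J ≤ P := by
    intro h
    obtain ⟨σ, hσ, hσP⟩ := (Ideal.IsPrime.prod_le inferInstance).1 h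
    exact (Finset.mem_filter.1 hσ).2
      (((Ideal.isMaximal_map_iff_of_bijective
        (MulSemiringAction.toRingEquiv (K ≃ₐ[ℚ] K) (𝓞 K) σ)
        (MulSemiringAction.toRingEquiv (K ≃ₐ[ℚ] K) (𝓞 K) σ).bijective).2 inferInstance).eq_of_le
        (Ideal.IsMaximal.ne_top inferInstance) hσP)
  obtain ⟨u, hu, v, hv, huv⟩ := Submodule.mem_sup.1 (show (1 : 𝓞 K) ∈ P ^ N ⊔ J by
    rw [Ideal.pow_sup_eq_top
      ((Ideal.IsMaximal.out (I := P)).2 _ (left_lt_sup.2 hJ))]
    exact Submodule.mem_top)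
  set x := v * (ω + π)
  have hx : x - (ω + π) ∈ P ^ N := by
    rw [show x - (ω + π) = -(u * (ω + π)) by
      simp only [x]; linear_combination (-(ω + π)) * huv.symm]
    exact neg_mem (Ideal.mul_mem_right _ _ hu)
  have hxω : x - ω ∈ P := by
    rw [show x - ω = x - (ω + π) + π by ring]
    exact add_mem (Ideal.pow_le_self (Nat.succ_ne_zero _) hx) hπ
  have hπI : ∀ σ : P.inertia (K ≃ₐ[ℚ] K), σ ≠ 1 → π - σ • π ≠ 0 := fun σ hσ =>
    sub_ne_zero.2 (smul_uniformiser_ne hP (fun τ y => τ.2 y) hπ hπ' hσ).symm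
  -- the valuations of the differences of the conjugates
  have hin : ∀ σ : P.inertia (K ≃ₐ[ℚ] K), σ ≠ 1 →
      x - σ • x ≠ 0 ∧ vP P (x - σ • x) = vP P (π - σ • π) := by
    intro σ hσ
    refine vP_congr hP (N := N) ?_ (hπI σ hσ) (Nat.lt_succ_of_le
      (Finset.single_le_sum (f := fun τ : P.inertia (K ≃ₐ[ℚ] K) => vP P (π - τ • π))
        (fun _ _ => Nat.zero_le _) (Finset.mem_erase.2 ⟨hσ, Finset.mem_univ σ⟩)))
    rw [show x - σ • x - (π - σ • π) =
      (x - (ω + π)) - σ • (x - (ω + π)) - (σ • ω - ω) by rw [smul_sub, smul_add]; ring]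
    exact sub_mem (sub_mem hx (smul_mem_pow (fun τ y => τ.2 y) hx)) (hωfix σ σ.2)
  have hout : ∀ σ : K ≃ₐ[ℚ] K, σ ∉ P.inertia (K ≃ₐ[ℚ] K) → x - σ • x ∉ P := by
    intro σ hσ h
    by_cases hσP : σ • P = P
    · have hωσ : σ • ω - ω ∈ P := by
        have h' := Ideal.smul_mem_pointwise_smul σ _ P hxω
        rw [hσP, smul_sub] at h'
        rw [show σ • ω - ω = (x - ω) - (σ • x - σ • ω) - (x - σ • x) by ring]
        exact sub_mem (sub_mem hxω h') h
      refine hσ fun y => ?_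
      by_cases hy : y ∈ P
      · exact sub_mem (hσP ▸ Ideal.smul_mem_pointwise_smul σ _ P hy) hy
      obtain ⟨j, hj⟩ := hωgen y hy
      have h' := Ideal.smul_mem_pointwise_smul σ _ P hj
      rw [hσP, smul_sub, smul_pow'] at h'
      obtain ⟨c, hc⟩ := sub_dvd_pow_sub_pow (σ • ω) ω j
      rw [show σ • y - y = (σ • y - (σ • ω) ^ j) + ((σ • ω) ^ j - ω ^ j) - (y - ω ^ j) by ring, hc]
      exact sub_mem (add_mem h' (Ideal.mul_mem_right _ _ hωσ)) hj
    · have hσ' : σ⁻¹ • P ≠ P := fun e => hσP (inv_smul_eq_iff.1 e).symm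
      have hxJ : x ∈ σ⁻¹ • P := by
        refine Ideal.mul_mem_right _ _ ?_
        exact (Ideal.prod_le_inf.trans (Finset.inf_le (Finset.mem_filter.2
          ⟨Finset.mem_univ σ⁻¹, hσ'⟩))) hv
      have h' := Ideal.smul_mem_pointwise_smul σ _ _ hxJ
      rw [smul_inv_smul] at h'
      exact hω (by simpa using sub_mem (add_mem h h') hxω)
  have hne : ∀ σ : K ≃ₐ[ℚ] K, σ ≠ 1 → x - σ • x ≠ 0 := fun σ hσ e => by
    by_cases hI : σ ∈ P.inertia (K ≃ₐ[ℚ] K)
    · exact (hin ⟨σ, hI⟩ fun e' => hσ (congrArg Subtype.val e')).1 e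
    · exact hout σ hI (e ▸ zero_mem P)
  have hinj : Function.Injective fun σ : K ≃ₐ[ℚ] K => σ • x := fun a b hab => by
    by_contra hne'
    refine hne (b⁻¹ * a) (fun e => hne' (inv_mul_eq_one.1 e).symm) ?_
    rw [mul_smul, show a • x = b • x from hab, inv_smul_smul, sub_self]
  -- the minimal polynomial
  set f := minpoly ℤ x
  have hint : IsIntegral ℤ x := RingOfIntegers.isIntegral x
  set g : (𝓞 K)[X] := ∏ σ : K ≃ₐ[ℚ] K, (X - C (σ • x))
  have hfK : minpoly ℚ (x : K) = f.map (algebraMap ℤ ℚ) :=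
    minpoly.isIntegrallyClosed_eq_field_fractions ℚ K hint
  have hdeg : f.natDegree = (minpoly ℚ (x : K)).natDegree := by
    rw [hfK, (minpoly.monic hint).natDegree_map]
  have hgdeg : g.natDegree = Module.finrank ℚ K := by
    rw [natDegree_prod_of_monic _ _ fun σ _ => monic_X_sub_C _]
    simp [← IsGalois.card_aut_eq_finrank, Nat.card_eq_fintype_card]
  have hdvd : g ∣ f.map (algebraMap ℤ (𝓞 K)) := by
    have hf0 : f.map (algebraMap ℤ (𝓞 K)) ≠ 0 := ((minpoly.monic hint).map _).ne_zero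
    rw [show g = ((Finset.univ.image fun σ : K ≃ₐ[ℚ] K => σ • x).val.map fun a => X - C a).prod by
      rw [← Finset.prod_eq_multiset_prod, Finset.prod_image hinj.injOn],
      Multiset.prod_X_sub_C_dvd_iff_le_roots hf0, Multiset.le_iff_subset (Finset.nodup _)]
    intro a ha
    obtain ⟨σ, -, rfl⟩ := Finset.mem_image.1 (Finset.mem_def.2 ha)
    rw [mem_roots hf0, IsRoot, eval_map]
    have h0 := congrArg (fun y => σ • y) (minpoly.aeval ℤ x)
    simp only [smul_zero] at h0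
    rw [← aeval_def]
    exact (Polynomial.aeval_algHom_apply (MulSemiringAction.toAlgHom ℤ (𝓞 K) σ) x f).trans h0
  have hfn : f.natDegree ≤ Module.finrank ℚ K := hdeg ▸ minpoly.natDegree_le _
  have hfg : g = f.map (algebraMap ℤ (𝓞 K)) :=
    (eq_of_monic_of_dvd_of_natDegree_le (monic_prod_of_monic _ _ fun σ _ => monic_X_sub_C _)
      ((minpoly.monic hint).map _) hdvd (by rwa [(minpoly.monic hint).natDegree_map, hgdeg])).symm
  have htop : Algebra.adjoin ℚ {algebraMap (𝓞 K) K x} = ⊤ := by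
    have he : (minpoly ℚ (x : K)).natDegree = Module.finrank ℚ K := by
      rw [← hdeg, ← hgdeg, hfg, (minpoly.monic hint).natDegree_map]
    have h := (Field.primitive_element_iff_minpoly_natDegree_eq ℚ (x : K)).2 he
    rw [← IntermediateField.adjoin_toSubalgebra,
      show IntermediateField.adjoin ℚ {algebraMap (𝓞 K) K x} = ⊤ from h,
      IntermediateField.top_toSubalgebra]
  -- the derivative
  have hder : aeval x (derivative f) = ∏ σ ∈ Finset.univ.erase (1 : K ≃ₐ[ℚ] K), (x - σ • x) := by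
    rw [aeval_def, ← eval_map, ← derivative_map, ← hfg,
      show g = (X - C x) * ∏ σ ∈ Finset.univ.erase (1 : K ≃ₐ[ℚ] K), (X - C (σ • x)) by
        simp only [g]
        rw [← Finset.mul_prod_erase _ _ (Finset.mem_univ (1 : K ≃ₐ[ℚ] K)), one_smul]]
    simp [derivative_mul, eval_prod]
  have hmem := aeval_derivative_mem_differentIdeal ℤ ℚ K x htop
  rw [hder] at hmem
  have hPk := Ideal.le_of_dvd hk hmem
  have hval : vP P (∏ σ ∈ Finset.univ.erase (1 : K ≃ₐ[ℚ] K), (x - σ • x)) = moves P π := by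
    rw [vP_prod hP _ _ fun σ hσ => hne σ (Finset.mem_erase.1 hσ).1,
      ← Finset.sum_filter_add_sum_filter_not _ (fun σ => σ ∈ P.inertia (K ≃ₐ[ℚ] K)),
      Finset.sum_eq_zero (fun σ hσ => vP_eq_zero hP (hout σ (Finset.mem_filter.1 hσ).2)), add_zero]
    exact Finset.sum_bij' (fun σ hσ => ⟨σ, (Finset.mem_filter.1 hσ).2⟩) (fun σ _ => σ.1)
      (fun σ hσ => Finset.mem_erase.2 ⟨fun e => (Finset.mem_erase.1 (Finset.mem_filter.1 hσ).1).1
        (congrArg Subtype.val e), Finset.mem_univ _⟩)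
      (fun σ hσ => Finset.mem_filter.2 ⟨Finset.mem_erase.2
        ⟨fun e => (Finset.mem_erase.1 hσ).1 (Subtype.ext e), Finset.mem_univ _⟩, σ.2⟩)
      (fun _ _ => rfl) (fun _ _ => rfl) fun σ hσ => (hin ⟨σ, (Finset.mem_filter.1 hσ).2⟩
        fun e => (Finset.mem_erase.1 (Finset.mem_filter.1 hσ).1).1 (congrArg Subtype.val e)).2
  rw [← hval]
  exact (mem_pow_iff hP (Finset.prod_ne_zero_iff.2 fun σ hσ =>
    hne σ (Finset.mem_erase.1 hσ).1) k).1 hPk

include h2 in
/-- **Tame inertia.** -/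
theorem moves_of_tame (hW : wild P = ⊥) {π : 𝓞 K} (hπ : π ∈ P) (hπ' : π ∉ P ^ 2) :
    moves P π + 1 = Nat.card (P.inertia (K ≃ₐ[ℚ] K)) := by
  classical
  have hone : ∀ σ ∈ Finset.univ.erase (1 : P.inertia (K ≃ₐ[ℚ] K)), vP P (π - σ • π) = 1 := by
    intro σ hσ
    refine (vP_eq (prime_over_two P h2) (k := 1) ?_ fun h => (Finset.mem_erase.1 hσ).1 ?_).2
    · rw [pow_one, ← neg_sub]
      exact neg_mem (σ.2 π)
    · refine Subtype.ext ((Subgroup.mem_bot (G := K ≃ₐ[ℚ] K)).1 (hW ▸ ?_))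
      rw [mem_wild_iff P h2 hπ hπ' σ.2, ← neg_sub]
      exact neg_mem h
  rw [moves, Finset.sum_congr rfl hone, Finset.sum_const, smul_eq_mul, mul_one,
    Finset.card_erase_of_mem (Finset.mem_univ _), Finset.card_univ, Nat.card_eq_fintype_card]
  exact Nat.sub_add_cancel Fintype.card_pos

include h2 in
/-- An element of `P ^ e` fixed or negated by inertia is twice another one up to a fixed unit at
`P`. -/
theorem exists_div_two : ∃ T : 𝓞 K, T ∉ P ∧ (∀ σ ∈ P.inertia (K ≃ₐ[ℚ] K), σ • T = T) ∧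
    ∀ b ∈ P ^ Nat.card (P.inertia (K ≃ₐ[ℚ] K)), (2 : 𝓞 K) ∣ b * T := by
  classical
  have hP := prime_over_two P h2
  set e := Nat.card (P.inertia (K ≃ₐ[ℚ] K))
  have he : e = vP P (2 : 𝓞 K) := card_inertia P h2
  obtain ⟨R, hR⟩ := Ideal.dvd_span_singleton.2
    ((mem_pow_iff hP two_ne_zero e).2 he.le)
  have hRP : ¬ R ≤ P := fun h => by
    have h' : (2 : 𝓞 K) ∈ P ^ (e + 1) := by
      rw [pow_succ]
      exact Ideal.mul_mono le_rfl h (hR ▸ Ideal.mem_span_singleton_self _)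
    have := (mem_pow_iff hP two_ne_zero _).1 h'
    omega
  obtain ⟨t, htR, htP⟩ := SetLike.not_le_iff_exists.1 hRP
  refine ⟨∏ σ : P.inertia (K ≃ₐ[ℚ] K), σ • t, fun h => ?_, fun σ hσ => ?_, fun b hb => ?_⟩
  · obtain ⟨σ, -, hσ⟩ := (inferInstance : P.IsPrime).prod_mem_iff.1 h
    exact htP ((smul_mem_iff_prime (I := P.inertia (K ≃ₐ[ℚ] K)) (fun τ y => τ.2 y) σ t).1 hσ)
  · rw [show σ • _ = (⟨σ, hσ⟩ : P.inertia (K ≃ₐ[ℚ] K)) • _ from rfl, Finset.smul_prod']
    exact Fintype.prod_equiv (Equiv.mulLeft ⟨σ, hσ⟩) _ _ fun τ => (mul_smul _ _ _).symm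
  · rw [← Ideal.mem_span_singleton, hR]
    refine Ideal.mul_mem_mul hb ?_
    rw [← Finset.mul_prod_erase _ _ (Finset.mem_univ (1 : P.inertia (K ≃ₐ[ℚ] K))), one_smul]
    exact Ideal.mul_mem_right _ _ htR

include h2 in
/-- **The valuation of an element fixed by inertia is a multiple of `e`.** -/
theorem dvd_vP_fixed : ∀ (d : ℕ) (b : 𝓞 K), b ≠ 0 → vP P b = d →
    (∀ σ ∈ P.inertia (K ≃ₐ[ℚ] K), σ • b = b) → Nat.card (P.inertia (K ≃ₐ[ℚ] K)) ∣ d := by
  have hP := prime_over_two P h2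
  have := finite_residue P h2
  have := faithfulSMul_subgroup (P.inertia (K ≃ₐ[ℚ] K))
  obtain ⟨π, hπ, hπ'⟩ := exists_uniformiser P h2
  obtain ⟨T, hT, hTfix, hT2⟩ := exists_div_two P h2
  intro d
  induction d using Nat.strong_induction_on with
  | _ d ih =>
    intro b hb hd hfix
    rcases Nat.eq_zero_or_pos d with rfl | hpos
    · exact dvd_zero _
    have hle : Nat.card (P.inertia (K ≃ₐ[ℚ] K)) ≤ d :=
      vP_fixed hP (I := P.inertia (K ≃ₐ[ℚ] K)) (fun τ y => τ.2 y) hπ hπ'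
        (fun σ => hfix σ σ.2) hpos ((mem_pow_iff hP hb d).2 hd.ge)
        (fun h => by have := (mem_pow_iff hP hb _).1 h; omega)
    obtain ⟨b', hb'⟩ := hT2 b ((mem_pow_iff hP hb _).2 (hd ▸ hle))
    have hT0 : T ≠ 0 := fun e => hT (e ▸ zero_mem _)
    have hb'0 : b' ≠ 0 := fun e => mul_ne_zero hb hT0 (by rw [hb', e, mul_zero])
    have hv := congrArg (vP P) hb'
    rw [vP_mul hP hb hT0, vP_eq_zero hP hT, vP_mul hP two_ne_zero hb'0,
      ← card_inertia P h2] at hv
    have hpos' : 0 < Nat.card (P.inertia (K ≃ₐ[ℚ] K)) := Nat.card_pos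
    have := ih (vP P b') (by omega) b' hb'0 rfl fun σ hσ => by
      have h := congrArg (σ • ·) hb'
      have h2fix : σ • (2 : 𝓞 K) = 2 :=
        map_ofNat (MulSemiringAction.toRingHom (K ≃ₐ[ℚ] K) (𝓞 K) σ) 2
      simp only [smul_mul', h2fix, hfix σ hσ, hTfix σ hσ] at h
      exact (mul_left_cancel₀ two_ne_zero (hb'.symm.trans h)).symm
    rw [show d = Nat.card (P.inertia (K ≃ₐ[ℚ] K)) + vP P b' by omega]
    exact dvd_add dvd_rfl this

include h2 in
/-- A Kummer generator for a quadratic character of inertia, of valuation less than `e`. -/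
theorem exists_eigen (χ : P.inertia (K ≃ₐ[ℚ] K) →* ℤˣ) : ∃ z : 𝓞 K, z ≠ 0 ∧
      (∀ σ : P.inertia (K ≃ₐ[ℚ] K), σ • z = ((χ σ : ℤ) : 𝓞 K) * z) ∧
      vP P z < Nat.card (P.inertia (K ≃ₐ[ℚ] K)) := by
  classical
  have hP := prime_over_two P h2
  have := faithfulSMul_subgroup (P.inertia (K ≃ₐ[ℚ] K))
  obtain ⟨z₀, hz₀, hz₀σ⟩ : ∃ z : 𝓞 K, z ≠ 0 ∧
      ∀ σ : P.inertia (K ≃ₐ[ℚ] K), σ • z = ((χ σ : ℤ) : 𝓞 K) * z := by
    by_contra! hall
    have hzero : ∀ y : 𝓞 K,
        ∑ σ : P.inertia (K ≃ₐ[ℚ] K), ((χ σ : ℤ) : 𝓞 K) * σ • y = 0 := fun y => by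
      by_contra hne
      obtain ⟨τ, hτ⟩ := hall _ hne
      refine hτ ?_
      have hmapint : ∀ m : ℤ, τ • ((m : ℤ) : 𝓞 K) = (m : 𝓞 K) := fun m =>
        map_intCast (MulSemiringAction.toRingHom (P.inertia (K ≃ₐ[ℚ] K)) (𝓞 K) τ) m
      rw [Finset.smul_sum, Finset.mul_sum]
      refine Fintype.sum_equiv (Equiv.mulLeft τ) _ _ fun σ => ?_
      rw [smul_mul', hmapint, Equiv.coe_mulLeft, mul_smul, map_mul, Units.val_mul, Int.cast_mul,
        ← mul_assoc, ← mul_assoc, ← Int.cast_mul (χ τ : ℤ), ← Units.val_mul,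
        Int.units_mul_self, Units.val_one, Int.cast_one, one_mul]
    have hli := (linearIndependent_monoidHom (𝓞 K) (𝓞 K)).comp
      (fun σ : P.inertia (K ≃ₐ[ℚ] K) => (MulSemiringAction.toRingHom _ (𝓞 K) σ).toMonoidHom)
      fun a b h => FaithfulSMul.eq_of_smul_eq_smul (α := 𝓞 K) fun y => DFunLike.congr_fun h y
    have h1 := Fintype.linearIndependent_iff.1 hli (fun σ => ((χ σ : ℤ) : 𝓞 K))
      (funext fun y => by simpa using hzero y) 1
    simp at h1
  obtain ⟨T, hT, hTfix, hT2⟩ := exists_div_two P h2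
  suffices ∀ (d : ℕ) (z : 𝓞 K), z ≠ 0 → vP P z = d →
      (∀ σ : P.inertia (K ≃ₐ[ℚ] K), σ • z = ((χ σ : ℤ) : 𝓞 K) * z) → ∃ z : 𝓞 K, z ≠ 0 ∧
      (∀ σ : P.inertia (K ≃ₐ[ℚ] K), σ • z = ((χ σ : ℤ) : 𝓞 K) * z) ∧
      vP P z < Nat.card (P.inertia (K ≃ₐ[ℚ] K)) from this _ z₀ hz₀ rfl hz₀σ
  intro d
  induction d using Nat.strong_induction_on with
  | _ d ih =>
    intro z hz hd hσ
    by_cases hlt : vP P z < Nat.card (P.inertia (K ≃ₐ[ℚ] K))
    · exact ⟨z, hz, hσ, hlt⟩
    obtain ⟨z', hz'⟩ := hT2 z ((mem_pow_iff hP hz _).2 (not_lt.1 hlt))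
    have hT0 : T ≠ 0 := fun e => hT (e ▸ zero_mem _)
    have hz'0 : z' ≠ 0 := fun e => mul_ne_zero hz hT0 (by rw [hz', e, mul_zero])
    have hv := congrArg (vP P) hz'
    rw [vP_mul hP hz hT0, vP_eq_zero hP hT, vP_mul hP two_ne_zero hz'0,
      ← card_inertia P h2] at hv
    have hpos' : 0 < Nat.card (P.inertia (K ≃ₐ[ℚ] K)) := Nat.card_pos
    refine ih (vP P z') (by omega) z' hz'0 rfl fun σ => ?_
    have h := congrArg (σ • ·) hz'
    have hT' : σ • T = T := hTfix _ σ.2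
    have h2fix : σ • (2 : 𝓞 K) = 2 :=
      map_ofNat (MulSemiringAction.toRingHom (P.inertia (K ≃ₐ[ℚ] K)) (𝓞 K) σ) 2
    simp only [smul_mul', hσ σ, hT', h2fix] at h
    rw [mul_assoc, hz'] at h
    exact mul_left_cancel₀ two_ne_zero (h.symm.trans (by ring))

include h2 in
/-- **Wild inertia of exponent two**: twice the movement is at most `5 e - 4`. -/
theorem moves_of_sq (hsq : ∀ σ ∈ P.inertia (K ≃ₐ[ℚ] K), σ * σ = 1) {π : 𝓞 K} (hπ : π ∈ P)
    (hπ' : π ∉ P ^ 2) :
    2 * moves P π + 4 ≤ 5 * Nat.card (P.inertia (K ≃ₐ[ℚ] K)) := by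
  classical
  have hP := prime_over_two P h2
  have := finite_residue P h2
  have := faithfulSMul_subgroup (P.inertia (K ≃ₐ[ℚ] K))
  let I := P.inertia (K ≃ₐ[ℚ] K)
  have hsq' : ∀ σ : I, σ * σ = 1 := fun σ => Subtype.ext (hsq _ σ.2)
  let _ : CommGroup I :=
    { (inferInstance : Group I) with
      mul_comm := fun a b => by
        have hinv : ∀ c : I, c⁻¹ = c := fun c => inv_eq_of_mul_eq_one_right (hsq' c)
        rw [← hinv (a * b), mul_inv_rev, hinv, hinv] }
  have : HasEnoughRootsOfUnity ℤ 2 :=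
    { prim := ⟨-1, IsPrimitiveRoot.neg_one 0 (by norm_num)⟩, cyc := inferInstance }
  have : HasEnoughRootsOfUnity ℤ (Monoid.exponent I) := HasEnoughRootsOfUnity.of_dvd ℤ
    (Monoid.exponent_dvd_of_forall_pow_eq_one fun σ => by rw [sq]; exact hsq' σ)
  have hcard : Nat.card (I →* ℤˣ) = Nat.card I :=
    CommGroup.card_monoidHom_of_hasEnoughRootsOfUnity I ℤ
  have : Finite (I →* ℤˣ) := Nat.finite_of_card_ne_zero (hcard ▸ Nat.card_pos.ne')
  have := Fintype.ofFinite (I →* ℤˣ)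
  set e := Fintype.card I
  have hXe : Fintype.card (I →* ℤˣ) = e := by simpa [Nat.card_eq_fintype_card] using hcard
  choose z hz0 hz hzlt using exists_eigen P h2
  have hdvd : ∀ w : 𝓞 K, w ≠ 0 → (∀ σ : I, σ • w = w) → e ∣ vP P w := fun w hw h => by
    simpa [e, I, Nat.card_eq_fintype_card] using dvd_vP_fixed P h2 _ w hw rfl
      fun σ hσ => h ⟨σ, hσ⟩
  have hzlt' : ∀ χ, vP P (z χ) < e := fun χ => by
    simpa [e, I, Nat.card_eq_fintype_card] using hzlt χ
  have hhalf : ∀ χ, 2 * vP P (z χ) = 0 ∨ 2 * vP P (z χ) = e := fun χ => by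
    obtain ⟨m, hm⟩ := hdvd (z χ * z χ) (mul_ne_zero (hz0 χ) (hz0 χ)) fun σ => by
      rw [smul_mul', hz, mul_mul_mul_comm, ← Int.cast_mul, ← Units.val_mul, Int.units_mul_self,
        Units.val_one, Int.cast_one, one_mul]
    rw [vP_mul hP (hz0 χ) (hz0 χ)] at hm
    have := hzlt' χ
    rcases m with _ | _ | m
    · left; omega
    · right; omega
    · exfalso
      rw [mul_add, mul_add] at hm
      omega
  set A := Finset.univ.filter fun χ => 2 * vP P (z χ) = e
  have he0 : 0 < e := Fintype.card_pos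
  have hone : (1 : I →* ℤˣ) ∉ A := fun h => by
    have h' : 2 * vP P (z 1) = e := (Finset.mem_filter.1 h).2
    have hd := hdvd (z 1) (hz0 1) fun σ => by simp [hz]
    have := hzlt' 1
    have := Nat.eq_zero_of_dvd_of_lt hd this
    omega
  have hA : 2 * A.card ≤ e := by
    rcases A.eq_empty_or_nonempty with hA | ⟨χ₀, hχ₀⟩
    · simp [hA]
    have hdisj : Disjoint A (A.image (χ₀ * ·)) := by
      refine Finset.disjoint_right.2 fun χ hχ hχA => ?_
      obtain ⟨χ₁, hχ₁, rfl⟩ := Finset.mem_image.1 hχ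
      have h3 := hdvd (z χ₀ * z χ₁ * z (χ₀ * χ₁))
        (mul_ne_zero (mul_ne_zero (hz0 _) (hz0 _)) (hz0 _)) fun σ => by
        rw [smul_mul', smul_mul', hz, hz, hz, MonoidHom.mul_apply, Units.val_mul, Int.cast_mul]
        rw [show ∀ a b c₁ c₂ c₃ : 𝓞 K,
          a * c₁ * (b * c₂) * (a * b * c₃) = a * a * (b * b) * (c₁ * c₂ * c₃) from
            fun _ _ _ _ _ => by ring, ← Int.cast_mul, ← Int.cast_mul, ← Units.val_mul,
          ← Units.val_mul, Int.units_mul_self, Int.units_mul_self]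
        simp
      rw [vP_mul hP (mul_ne_zero (hz0 _) (hz0 _)) (hz0 _), vP_mul hP (hz0 _) (hz0 _)] at h3
      have a0 := (Finset.mem_filter.1 hχ₀).2
      have a1 := (Finset.mem_filter.1 hχ₁).2
      have a2 := (Finset.mem_filter.1 hχA).2
      obtain ⟨m, hm⟩ := h3
      rcases m with _ | _ | m
      · omega
      · omega
      · rw [mul_add, mul_add] at hm
        omega
    have := Finset.card_le_univ (A ∪ A.image (χ₀ * ·))
    rw [Finset.card_union_of_disjoint hdisj,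
      Finset.card_image_of_injective _ (mul_right_injective χ₀), hXe] at this
    omega
  -- Herbrand's inequality for each character
  have hher : ∀ χ : I →* ℤˣ, χ ≠ 1 →
      ∑ σ ∈ Finset.univ.filter (fun σ : I => χ σ ≠ 1), vP P (π - σ • π) ≤ e + vP P (z χ) := by
    intro χ hχ
    obtain ⟨s, hs⟩ : ∃ s, χ s ≠ 1 := by
      by_contra! h
      exact hχ (MonoidHom.ext h)
    have hval : ∀ σ, χ σ ≠ 1 → χ σ = -1 := fun σ h => (Int.units_eq_one_or _).resolve_left h
    have hsz : s • z χ - z χ = -(2 * z χ) := by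
      rw [hz, hval s hs]
      push_cast
      ring
    have hne : s • z χ ≠ z χ := fun h => mul_ne_zero two_ne_zero (hz0 χ)
      (neg_eq_zero.1 (hsz.symm.trans (sub_eq_zero.2 h)))
    have hH := sum_vP_le hP (I := I) (fun τ y => τ.2 y) hπ hπ' χ.ker (z := z χ)
      (fun τ => by rw [hz, MonoidHom.mem_ker.1 τ.2, Units.val_one, Int.cast_one, one_mul]) s
      (fun h => hs (MonoidHom.mem_ker.1 h)) hne
    have hneg : vP P (-(2 * z χ)) = e + vP P (z χ) := by
      rw [show vP P (-(2 * z χ)) = vP P (2 * z χ) by rw [vP, vP, Ideal.span_singleton_neg],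
        vP_mul hP two_ne_zero (hz0 χ), ← card_inertia P h2, Nat.card_eq_fintype_card]
    rw [hsz, hneg] at hH
    refine le_trans (le_of_eq ?_) hH
    refine Finset.sum_bij' (fun σ hσ => (⟨s⁻¹ * σ, MonoidHom.mem_ker.2 (by
      rw [map_mul, map_inv, hval s hs, hval σ (Finset.mem_filter.1 hσ).2]; simp)⟩ : χ.ker))
      (fun τ _ => s * τ) (fun _ _ => Finset.mem_univ _) (fun τ _ => Finset.mem_filter.2
        ⟨Finset.mem_univ _, by rw [map_mul, MonoidHom.mem_ker.1 τ.2, mul_one]; exact hs⟩)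
      (fun σ _ => mul_inv_cancel_left s σ) (fun τ _ => Subtype.ext (inv_mul_cancel_left s _))
      fun σ _ => by simp
  -- each element other than one is moved by half of the characters
  have hcount : ∀ σ : I, σ ≠ 1 →
      2 * ((Finset.univ.erase (1 : I →* ℤˣ)).filter fun χ => χ σ ≠ 1).card = e := by
    intro σ hσ
    obtain ⟨χ₀, hχ₀⟩ := CommGroup.exists_apply_ne_one_of_hasEnoughRootsOfUnity I ℤ hσ
    have hset : (Finset.univ.erase (1 : I →* ℤˣ)).filter (fun χ => χ σ ≠ 1) =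
        Finset.univ.filter fun χ => ¬ χ σ = 1 := by
      ext χ
      simp only [Finset.mem_filter, Finset.mem_erase, Finset.mem_univ, and_true, true_and, ne_eq]
      exact ⟨And.right, fun h => ⟨fun e' => h (by rw [e', MonoidHom.one_apply]), h⟩⟩
    have h0 : χ₀ σ = -1 := (Int.units_eq_one_or _).resolve_left hχ₀
    have heq : (Finset.univ.filter fun χ : I →* ℤˣ => ¬ χ σ = 1).card =
        (Finset.univ.filter fun χ : I →* ℤˣ => χ σ = 1).card := by
      refine Finset.card_equiv (Equiv.mulLeft χ₀) fun χ => ?_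
      rcases Int.units_eq_one_or (χ σ) with h | h <;> simp [h, h0]
    rw [hset, two_mul]
    nth_rw 1 [heq]
    rw [Finset.card_filter_add_card_filter_not, Finset.card_univ, hXe]
  -- combine
  have hmain : ∑ χ ∈ Finset.univ.erase (1 : I →* ℤˣ),
      2 * ∑ σ ∈ Finset.univ.filter (fun σ : I => χ σ ≠ 1), vP P (π - σ • π) = e * moves P π := by
    rw [moves, Finset.mul_sum]
    simp only [Finset.sum_filter, Finset.mul_sum, mul_ite, mul_zero]
    rw [Finset.sum_comm]
    refine (Finset.sum_erase _ (a := (1 : I)) (by simp)).symm.trans (Finset.sum_congr rfl ?_)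
    intro σ hσ
    rw [← Finset.sum_filter, Finset.sum_const, smul_eq_mul, ← mul_assoc,
      mul_comm _ 2, hcount σ (Finset.mem_erase.1 hσ).1]
  have hle : e * moves P π ≤ ∑ χ ∈ Finset.univ.erase (1 : I →* ℤˣ), (2 * e + 2 * vP P (z χ)) := by
    rw [← hmain]
    refine Finset.sum_le_sum fun χ hχ => ?_
    have := hher χ (Finset.mem_erase.1 hχ).1
    omega
  have hsum : ∑ χ ∈ Finset.univ.erase (1 : I →* ℤˣ), 2 * vP P (z χ) = e * A.card := by
    rw [Finset.sum_congr rfl fun χ _ => show 2 * vP P (z χ) =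
        if χ ∈ A then e else 0 by
      rcases hhalf χ with h | h
      · rw [if_neg fun hA' => by have := (Finset.mem_filter.1 hA').2; omega, h]
      · rw [if_pos (show χ ∈ A from Finset.mem_filter.2 ⟨Finset.mem_univ _, h⟩), h],
      Finset.sum_ite_mem, Finset.sum_const, smul_eq_mul, mul_comm]
    congr 1
    rw [Finset.inter_eq_right.2 fun χ hχ => Finset.mem_erase.2
      ⟨fun e' => hone (by rwa [e'] at hχ), Finset.mem_univ _⟩]
  rw [Finset.sum_add_distrib, hsum, Finset.sum_const, smul_eq_mul,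
    Finset.card_erase_of_mem (Finset.mem_univ _), Finset.card_univ, hXe,
    show (e - 1) * (2 * e) + e * A.card = e * (2 * (e - 1) + A.card) by ring] at hle
  have := Nat.le_of_mul_le_mul_left hle he0
  rw [Nat.card_eq_fintype_card]
  show 2 * moves P π + 4 ≤ 5 * e
  omega

end FA.TateTwo

end
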