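import Mathlib.LinearAlgebra.Matrix.Charpoly.Coeff
import Mathlib.LinearAlgebra.Matrix.GeneralLinearGroup.Defs
import Mathlib.LinearAlgebra.Matrix.ToLinearEquiv
import Mathlib.Algebra.CharP.Two
import Mathlib.Algebra.CharP.Algebra

/-!
# Two by two matrices in characteristic two

A matrix of `2`-power order squares to the identity, as does a matrix of determinant one with a
fixed vector; a group of such matrices has a common fixed vector.
-/

set_option autoImplicit false

noncomputable section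

namespace FA.TateTwo

open Matrix

variable {F : Type*} [Field F]

theorem sq_eq_zero_of_trace_det (N : Matrix (Fin 2) (Fin 2) F) (ht : N.trace = 0)
    (hd : N.det = 0) : N ^ 2 = 0 := by
  rw [trace_fin_two] at ht
  rw [det_fin_two] at hd
  ext i j
  fin_cases i <;> fin_cases j <;> simp [sq, mul_apply, Fin.sum_univ_two]
  · linear_combination N 0 0 * ht - hd
  · linear_combination N 0 1 * ht
  · linear_combination N 1 0 * ht
  · linear_combination N 1 1 * ht - hd

theorem sq_eq_zero_of_isNilpotent (N : Matrix (Fin 2) (Fin 2) F) (h : IsNilpotent N) :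
    N ^ 2 = 0 :=
  sq_eq_zero_of_trace_det N (isNilpotent_trace_of_isNilpotent h).eq_zero
    (by
      obtain ⟨k, hk⟩ := h
      refine IsNilpotent.eq_zero ⟨k + 1, ?_⟩
      rw [← det_pow, pow_succ, hk, zero_mul, det_zero])

/-- The eigenvalues on an invariant line form a character. -/
theorem exists_char {G : Type*} [Group G] (ρ : G →* GL (Fin 2) F) {v : Fin 2 → F} (hv : v ≠ 0)
    (h : ∀ g, ∃ c : F, (ρ g : Matrix (Fin 2) (Fin 2) F) *ᵥ v = c • v) :
    ∃ χ : G →* Fˣ, ∀ g, (ρ g : Matrix (Fin 2) (Fin 2) F) *ᵥ v = (χ g : F) • v := by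
  choose c hc using h
  have hmul : ∀ a b, c (a * b) = c a * c b := fun a b => smul_left_injective F hv <| by
    simp only
    rw [← hc, map_mul, Units.val_mul, ← mulVec_mulVec, hc, mulVec_smul, hc, smul_smul, mul_comm]
  have hone : c 1 = 1 := smul_left_injective F hv <| by
    simp only
    rw [← hc, map_one, Units.val_one, one_mulVec, one_smul]
  let χ : G →* F := { toFun := c, map_one' := hone, map_mul' := hmul }
  exact ⟨χ.toHomUnits, fun g => hc g⟩

variable [CharP F 2]

theorem charP_matrix : CharP (Matrix (Fin 2) (Fin 2) F) 2 :=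
  charP_of_injective_algebraMap (algebraMap F (Matrix (Fin 2) (Fin 2) F)).injective 2

theorem sub_one_sq (g : Matrix (Fin 2) (Fin 2) F) : (g - 1) ^ 2 = g ^ 2 - 1 := by
  have := charP_matrix (F := F)
  rw [sub_pow_char_of_commute (p := 2) (Commute.one_right g), one_pow]

theorem sq_eq_one_of_pow {g : Matrix (Fin 2) (Fin 2) F} {k : ℕ} (h : g ^ 2 ^ k = 1) :
    g ^ 2 = 1 := by
  rw [← sub_eq_zero, ← sub_one_sq]
  have := charP_matrix (F := F)
  refine sq_eq_zero_of_isNilpotent _ ⟨2 ^ k, ?_⟩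
  rw [sub_pow_char_pow_of_commute (p := 2) k (Commute.one_right g), h, one_pow, sub_self]

theorem sq_eq_one_of_det {g : Matrix (Fin 2) (Fin 2) F} (hd : g.det = 1) {v : Fin 2 → F}
    (hv : v ≠ 0) (hgv : g *ᵥ v = v) : g ^ 2 = 1 := by
  rw [← sub_eq_zero, ← sub_one_sq]
  have hd0 : (g - 1).det = 0 :=
    exists_mulVec_eq_zero_iff.1 ⟨v, hv, by rw [sub_mulVec, hgv, one_mulVec, sub_self]⟩
  refine sq_eq_zero_of_trace_det _ ?_ hd0
  rw [det_fin_two] at hd hd0
  rw [trace_fin_two]
  simp only [Matrix.sub_apply, one_apply_eq, ne_eq, zero_ne_one, not_false_eq_true, one_apply_ne,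
    one_ne_zero, sub_zero] at hd0 ⊢
  linear_combination hd - hd0

/-- An involution other than the identity fixes exactly a line. -/
theorem exists_fixed_line {u : Matrix (Fin 2) (Fin 2) F} (hu : u ≠ 1) (h : u ^ 2 = 1) :
    ∃ v ≠ 0, u *ᵥ v = v ∧ ∀ w, u *ᵥ w = w → ∃ c : F, w = c • v := by
  set N := u - 1 with hN
  have hN0 : N ≠ 0 := sub_ne_zero.2 hu
  have hN2 : N * N = 0 := by rw [← sq, hN, sub_one_sq, h, sub_self]
  obtain ⟨i₀, j₀, hij⟩ : ∃ i j, N i j ≠ 0 := by
    by_contra! hall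
    exact hN0 (Matrix.ext hall)
  have hfix : ∀ w, u *ᵥ w = w ↔ N *ᵥ w = 0 := fun w => by
    rw [hN, sub_mulVec, one_mulVec, sub_eq_zero]
  refine ⟨N *ᵥ Pi.single j₀ 1, fun e => hij ?_, (hfix _).2 ?_, fun w hw => ?_⟩
  · simpa using congrFun e i₀
  · rw [mulVec_mulVec, hN2, zero_mulVec]
  set v := N *ᵥ Pi.single j₀ (1 : F)
  have hv : N *ᵥ v = 0 := by rw [mulVec_mulVec, hN2, zero_mulVec]
  have hv0 : v i₀ ≠ 0 := by simpa [v] using hij
  rw [hfix] at hw
  refine ⟨w i₀ / v i₀, ?_⟩
  have hdet : v 0 * w 1 - v 1 * w 0 = 0 := by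
    by_contra hne
    refine hN0 (Matrix.ext fun i j => ?_)
    have h1 := congrFun hv i
    have h2 := congrFun hw i
    simp only [mulVec, dotProduct, Fin.sum_univ_two, Pi.zero_apply] at h1 h2
    refine (mul_eq_zero.1 (?_ : N i j * (v 0 * w 1 - v 1 * w 0) = 0)).resolve_right hne
    fin_cases j <;> simp only [Fin.zero_eta, Fin.mk_one, Fin.isValue]
    · linear_combination w 1 * h1 - v 1 * h2
    · linear_combination v 0 * h2 - w 0 * h1
  funext i
  simp only [Pi.smul_apply, smul_eq_mul]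
  rw [div_mul_eq_mul_div, eq_div_iff hv0]
  fin_cases i <;> fin_cases i₀ <;> simp at * <;> grind

/-- A group of involutions has a common fixed vector. -/
theorem exists_common_fixed {G : Type*} [Group G] (ρ : G →* GL (Fin 2) F)
    (h : ∀ g, ρ g ^ 2 = 1) :
    ∃ v : Fin 2 → F, v ≠ 0 ∧ ∀ g, (ρ g : Matrix (Fin 2) (Fin 2) F) *ᵥ v = v := by
  by_cases hall : ∀ g, ρ g = 1
  · exact ⟨Pi.single 0 1, by simp, fun g => by rw [hall g, Units.val_one, one_mulVec]⟩
  push Not at hall
  obtain ⟨a, ha⟩ := hall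
  have hsq : ∀ g, (ρ g : Matrix (Fin 2) (Fin 2) F) ^ 2 = 1 := fun g => by
    rw [← Units.val_pow_eq_pow_val, h g, Units.val_one]
  obtain ⟨v, hv, hav, hline⟩ :=
    exists_fixed_line (fun e => ha (Units.ext e)) (hsq a)
  refine ⟨v, hv, fun g => ?_⟩
  have hcomm : ρ a * ρ g = ρ g * ρ a := by
    have hinv : ∀ x, (ρ x)⁻¹ = ρ x := fun x => inv_eq_of_mul_eq_one_right (by rw [← sq, h x])
    have := hinv (a * g)
    rw [map_mul, _root_.mul_inv_rev, hinv, hinv] at this
    exact this.symm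
  obtain ⟨c, hc⟩ := hline ((ρ g : Matrix (Fin 2) (Fin 2) F) *ᵥ v) (by
    rw [mulVec_mulVec, ← Units.val_mul, hcomm, Units.val_mul, ← mulVec_mulVec, hav])
  have hc2 : c * c = 1 := smul_left_injective F hv <| by
    simp only
    rw [← smul_smul, ← hc, ← mulVec_smul, ← hc, mulVec_mulVec, ← sq, hsq, one_mulVec, one_smul]
  rw [hc, show c = 1 by rwa [← sq, sq_eq_one_iff, CharTwo.neg_eq, or_self] at hc2, one_smul]

end FA.TateTwo

end
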