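import Fermat.Agent.TateTwo.Approximation
import Fermat.Agent.TateTwo.Unipotent
import Mathlib.NumberTheory.NumberField.Discriminant.Different
import Mathlib.NumberTheory.RamificationInertia.Galois
import Mathlib.RingTheory.Frobenius
import Mathlib.Data.ZMod.QuotientRing
import Mathlib.LinearAlgebra.FreeModule.IdealQuotient

/-!
# Inertia at two in a Galois extension of `ℚ` with a faithful representation in characteristic two

Wild inertia consists of the inertia elements which move the prime into its square; a Frobenius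
element squares tame inertia. So a character with values in a field of characteristic two kills
inertia, and if wild inertia is nontrivial then inertia consists of involutions fixing one line.
-/

set_option autoImplicit false
set_option linter.unusedSectionVars false

noncomputable section

open NumberField
open scoped Pointwise

namespace FA.TateTwo

variable {K : Type*} [Field K] [NumberField K] [IsGalois ℚ K]
variable (P : Ideal (𝓞 K)) [P.IsMaximal] (h2 : (2 : 𝓞 K) ∈ P)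

theorem faithfulSMul_integers : FaithfulSMul (K ≃ₐ[ℚ] K) (𝓞 K) :=
  (IsGaloisGroup.of_isFractionRing (K ≃ₐ[ℚ] K) ℤ (𝓞 K) ℚ K).faithful

theorem faithfulSMul_subgroup (H : Subgroup (K ≃ₐ[ℚ] K)) : FaithfulSMul H (𝓞 K) :=
  ⟨fun h => Subtype.ext ((faithfulSMul_integers (K := K)).eq_of_smul_eq_smul h)⟩

include h2 in
theorem prime_over_two : Prime P := by
  refine Ideal.prime_of_isPrime (fun h => ?_) inferInstance
  rw [h, Ideal.mem_bot] at h2
  exact two_ne_zero h2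

include h2 in
theorem exists_uniformiser : ∃ π ∈ P, π ∉ P ^ 2 := by
  obtain ⟨π, h1, h1'⟩ := Ideal.exists_mem_pow_notMem_pow_succ P (prime_over_two P h2).ne_zero
    (Ideal.IsMaximal.ne_top inferInstance) 1
  exact ⟨π, by rwa [pow_one] at h1, h1'⟩

include h2 in
theorem finite_residue : Finite (𝓞 K ⧸ P) :=
  Ideal.finiteQuotientOfFreeOfNeBot P (prime_over_two P h2).ne_zero

/-- The Galois group of the residue extension is generated by squaring. -/
theorem exists_squaring : (2 : 𝓞 K) ∈ P →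
    ∃ φ : K ≃ₐ[ℚ] K, φ • P = P ∧ ∀ x : 𝓞 K, φ • x - x ^ 2 ∈ P := by
  intro h2
  have := IsGaloisGroup.of_isFractionRing (K ≃ₐ[ℚ] K) ℤ (𝓞 K) ℚ K
  have : Algebra.IsInvariant ℤ (𝓞 K) (K ≃ₐ[ℚ] K) := IsGaloisGroup.isInvariant
  have := finite_residue P h2
  obtain ⟨φ, hφ⟩ := IsArithFrobAt.exists_of_isInvariant ℤ (K ≃ₐ[ℚ] K) P
  have hu : P.under ℤ = Ideal.span {((2 : ℕ) : ℤ)} := by
    refine ((PrincipalIdealRing.isMaximal_of_irreducible
      (Nat.prime_iff_prime_int.mp Nat.prime_two).irreducible).eq_of_le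
        (Ideal.comap_ne_top _ (Ideal.IsMaximal.ne_top inferInstance)) ?_).symm
    rw [Ideal.span_le, Set.singleton_subset_iff, SetLike.mem_coe, Ideal.mem_comap]
    simpa using h2
  have hc : Nat.card (ℤ ⧸ P.under ℤ) = 2 := by
    rw [hu, Nat.card_congr (Int.quotientSpanNatEquivZMod 2).toEquiv, Nat.card_zmod]
  refine ⟨φ, MulAction.mem_stabilizer_iff.1 hφ.mem_stabilizer, fun x => ?_⟩
  have h := hφ x
  rwa [hc] at h

/-- The wild inertia group. -/
def wild : Subgroup (K ≃ₐ[ℚ] K) where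
  carrier := {σ | σ ∈ P.inertia (K ≃ₐ[ℚ] K) ∧ ∀ x ∈ P, σ • x - x ∈ P ^ 2}
  one_mem' := ⟨one_mem _, fun x _ => by simp⟩
  mul_mem' {σ τ} hσ hτ := ⟨mul_mem hσ.1 hτ.1, fun x hx => by
    have e : (σ * τ) • x - x = σ • (τ • x) - τ • x + (τ • x - x) := by rw [mul_smul]; ring
    rw [e]
    refine add_mem (hσ.2 _ ?_) (hτ.2 x hx)
    simpa using add_mem (Ideal.pow_le_self two_ne_zero (hτ.2 x hx)) hx⟩
  inv_mem' {σ} hσ := ⟨inv_mem hσ.1, fun x hx => by
    have hx' : σ⁻¹ • x ∈ P := by simpa using add_mem ((inv_mem hσ.1 : σ⁻¹ ∈ _) x) hx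
    have h := hσ.2 _ hx'
    rw [smul_inv_smul] at h
    rw [← neg_sub]
    exact neg_mem h⟩

theorem wild_le : wild P ≤ P.inertia (K ≃ₐ[ℚ] K) := fun _ h => h.1

theorem inertia_conj {τ σ : K ≃ₐ[ℚ] K} (hτ : τ • P = P) (hσ : σ ∈ P.inertia (K ≃ₐ[ℚ] K)) :
    τ * σ * τ⁻¹ ∈ P.inertia (K ≃ₐ[ℚ] K) := fun x => by
  have h := Ideal.smul_mem_pointwise_smul τ _ P (hσ (τ⁻¹ • x))
  rwa [hτ, smul_sub, smul_inv_smul, ← mul_smul, ← mul_smul] at h

theorem wild_conj {τ σ : K ≃ₐ[ℚ] K} (hτ : τ • P = P) (hσ : σ ∈ wild P) :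
    τ * σ * τ⁻¹ ∈ wild P := ⟨inertia_conj P hτ hσ.1, fun x hx => by
  have hx' : τ⁻¹ • x ∈ P := by
    have h := Ideal.smul_mem_pointwise_smul τ⁻¹ _ P hx
    rwa [show τ⁻¹ • P = P from inv_smul_eq_iff.2 hτ.symm] at h
  have h := Ideal.smul_mem_pointwise_smul τ _ (P ^ 2) (hσ.2 _ hx')
  rwa [smul_pow', hτ, smul_sub, smul_inv_smul, ← mul_smul, ← mul_smul] at h⟩

theorem inertia_smul_eq {σ : K ≃ₐ[ℚ] K} (hσ : σ ∈ P.inertia (K ≃ₐ[ℚ] K)) : σ • P = P :=
  MulAction.mem_stabilizer_iff.1 (P.inertia_le_stabilizer hσ)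

/-- Wild inertia moves `P ^ m` into `P ^ (m + 1)`. -/
theorem wild_smul_sub_mem {σ : K ≃ₐ[ℚ] K} (hσ : σ ∈ wild P) :
    ∀ (m : ℕ) (x : 𝓞 K), x ∈ P ^ m → σ • x - x ∈ P ^ (m + 1) := by
  intro m
  induction m with
  | zero => exact fun x _ => by rw [zero_add, pow_one]; exact hσ.1 x
  | succ m ih =>
    intro x hx
    rw [pow_succ] at hx
    refine Submodule.mul_induction_on hx (fun a ha b hb => ?_) fun a b ha hb => ?_
    · have hσa : σ • a ∈ P ^ m := by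
        simpa using add_mem (Ideal.pow_le_pow_right (Nat.le_succ m) (ih a ha)) ha
      have e : σ • (a * b) - a * b = σ • a * (σ • b - b) + (σ • a - a) * b := by
        rw [smul_mul']; ring
      rw [e]
      refine add_mem ?_ ?_
      · rw [show m + 1 + 1 = m + 2 by omega, pow_add]
        exact Ideal.mul_mem_mul hσa (hσ.2 b hb)
      · rw [pow_succ]
        exact Ideal.mul_mem_mul (ih a ha) hb
    · rw [smul_add, show σ • a + σ • b - (a + b) = σ • a - a + (σ • b - b) by ring]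
      exact add_mem ha hb

include h2 in
theorem wild_pow_mem {σ : K ≃ₐ[ℚ] K} (hσ : σ ∈ wild P) {x : 𝓞 K} (hx : x ∈ P) :
    ∀ k : ℕ, σ ^ 2 ^ k • x - x ∈ P ^ (2 + k) := by
  intro k
  induction k with
  | zero => simpa using hσ.2 x hx
  | succ k ih =>
    set τ := σ ^ 2 ^ k
    rw [pow_succ, pow_mul, sq, mul_smul, show τ • (τ • x) - x =
      τ • (τ • x - x) - (τ • x - x) + 2 * (τ • x - x) by rw [smul_sub]; ring,
      show 2 + (k + 1) = 2 + k + 1 by omega]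
    refine add_mem (wild_smul_sub_mem P (pow_mem hσ _) _ _ ih) ?_
    rw [pow_succ']
    exact Ideal.mul_mem_mul h2 ih

include h2 in
theorem mem_wild_iff {π : 𝓞 K} (hπ : π ∈ P) (hπ' : π ∉ P ^ 2) {σ : K ≃ₐ[ℚ] K}
    (hσ : σ ∈ P.inertia (K ≃ₐ[ℚ] K)) : σ ∈ wild P ↔ σ • π - π ∈ P ^ 2 := by
  refine ⟨fun h => h.2 π hπ, fun h => ⟨hσ, fun x _ => ?_⟩⟩
  have := finite_residue P h2
  exact smul_sub_mem (prime_over_two P h2) (I := P.inertia (K ≃ₐ[ℚ] K)) (fun τ y => τ.2 y)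
    hπ hπ' (σ := ⟨σ, hσ⟩) h x

include h2 in
/-- Wild inertia elements have `2`-power order. -/
theorem wild_pow_eq_one {σ : K ≃ₐ[ℚ] K} (hσ : σ ∈ wild P) : ∃ k : ℕ, σ ^ 2 ^ k = 1 := by
  have := finite_residue P h2
  have := faithfulSMul_subgroup (P.inertia (K ≃ₐ[ℚ] K))
  obtain ⟨π, hπ, hπ'⟩ := exists_uniformiser P h2
  obtain ⟨m, hm⟩ := exists_apart (prime_over_two P h2) (I := P.inertia (K ≃ₐ[ℚ] K))
    (fun τ y => τ.2 y) hπ hπ'
  refine ⟨m, ?_⟩
  by_contra hne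
  refine hm ⟨σ ^ 2 ^ m, pow_mem hσ.1 _⟩ 1 (fun e => hne (congrArg Subtype.val e)) ?_
  rw [one_smul]
  exact Ideal.pow_le_pow_right (by omega) (wild_pow_mem P h2 hσ hπ m)

include h2 in
/-- A Frobenius element squares tame inertia. -/
theorem frobenius_conj {φ : K ≃ₐ[ℚ] K} (hφP : φ • P = P) (hφ : ∀ x : 𝓞 K, φ • x - x ^ 2 ∈ P)
    {τ : K ≃ₐ[ℚ] K} (hτ : τ ∈ P.inertia (K ≃ₐ[ℚ] K)) :
    (τ * τ)⁻¹ * (φ * τ * φ⁻¹) ∈ wild P := by
  have hP := prime_over_two P h2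
  obtain ⟨π, hπ, hπ'⟩ := exists_uniformiser P h2
  have hττ := mul_mem hτ hτ
  have hconj := inertia_conj P hφP hτ
  rw [mem_wild_iff P h2 hπ hπ' (mul_mem (inv_mem hττ) hconj)]
  have hmem : ∀ x, x ∈ P → τ • x ∈ P := fun x hx => by simpa using add_mem (hτ x) hx
  obtain ⟨c, w, hw, hc⟩ := exists_mul_add hP (d := 1) hπ'
    (show τ • π ∈ P ^ 1 by rw [pow_one]; exact hmem π hπ) 2
  have hmem2 : ∀ {ψ : K ≃ₐ[ℚ] K}, ψ • P = P → ∀ x, x ∈ P ^ 2 → ψ • x ∈ P ^ 2 :=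
    fun {ψ} hψ x hx => by
      simpa [smul_pow', hψ] using Ideal.smul_mem_pointwise_smul ψ x (P ^ 2) hx
  have hscal : ∀ x, x ∈ P → τ • x - c * x ∈ P ^ 2 := by
    intro x hx
    obtain ⟨u, v, hv, rfl⟩ := exists_mul_add hP (d := 1) hπ' (show x ∈ P ^ 1 by rwa [pow_one]) 2
    rw [smul_add, smul_mul', hc, show (π * c + w) * τ • u + τ • v - c * (π * u + v) =
      π * (τ • u - u) * c + w * τ • u + τ • v - c * v by ring]
    refine sub_mem (add_mem (add_mem (Ideal.mul_mem_right _ _ ?_) (Ideal.mul_mem_right _ _ hw))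
      (hmem2 (inertia_smul_eq P hτ) v hv)) (Ideal.mul_mem_left _ _ hv)
    rw [sq]
    exact Ideal.mul_mem_mul hπ (hτ u)
  have hφ' : φ⁻¹ • π ∈ P := by
    have h := Ideal.smul_mem_pointwise_smul φ⁻¹ _ P hπ
    rwa [show φ⁻¹ • P = P from inv_smul_eq_iff.2 hφP.symm] at h
  have h1 : (φ * τ * φ⁻¹) • π - c ^ 2 * π ∈ P ^ 2 := by
    have h := hmem2 hφP _ (hscal _ hφ')
    rw [smul_sub, smul_mul', smul_inv_smul] at h
    rw [mul_smul, mul_smul, show φ • τ • φ⁻¹ • π - c ^ 2 * π =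
      φ • τ • φ⁻¹ • π - φ • c * π + (φ • c - c ^ 2) * π by ring]
    refine add_mem h ?_
    rw [sq P]
    exact Ideal.mul_mem_mul (hφ c) hπ
  have h3 : (τ * τ) • π - c ^ 2 * π ∈ P ^ 2 := by
    rw [mul_smul, show τ • τ • π - c ^ 2 * π =
      τ • τ • π - c * τ • π + c * (τ • π - c * π) by ring]
    exact add_mem (hscal _ (hmem π hπ)) (Ideal.mul_mem_left _ _ (hscal π hπ))
  have h4 := hmem2 (inertia_smul_eq P (inv_mem hττ)) _ (sub_mem h1 h3)
  rw [smul_sub, smul_sub, smul_sub, sub_sub_sub_cancel_right, inv_smul_smul, ← mul_smul] at h4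
  exact h4

include h2 in
theorem mem_wild_of_sq {w : K ≃ₐ[ℚ] K} (hw : w ∈ P.inertia (K ≃ₐ[ℚ] K))
    (h : w * w ∈ wild P) : w ∈ wild P := by
  have hP := prime_over_two P h2
  obtain ⟨π, hπ, hπ'⟩ := exists_uniformiser P h2
  have hwπ : w • π ∈ P := by simpa using add_mem (hw π) hπ
  obtain ⟨c, v, hv, hc⟩ := exists_mul_add hP (d := 1) hπ' (show w • π ∈ P ^ 1 by rwa [pow_one]) 2
  have hwv : w • v ∈ P ^ 2 := by
    simpa [smul_pow', inertia_smul_eq P hw] using Ideal.smul_mem_pointwise_smul w v (P ^ 2) hv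
  have hsq := h.2 π hπ
  rw [mul_smul, hc, smul_add, smul_mul', hc] at hsq
  have h1 : (c * c - 1) * π ∈ P ^ (1 + 1) := by
    rw [show (c * c - 1) * π = ((π * c + v) * w • c + w • v - π) - (v * w • c + w • v)
      - π * (w • c - c) * c by ring]
    refine sub_mem (sub_mem hsq (add_mem (Ideal.mul_mem_right _ _ hv) hwv))
      (Ideal.mul_mem_right _ _ ?_)
    rw [sq]
    exact Ideal.mul_mem_mul hπ (hw c)
  have h1' := mem_pow_mul_cancel hP (a := 1) (k := 1) hπ' h1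
  rw [pow_one] at h1'
  have hc1 : c - 1 ∈ P := by
    refine (inferInstance : P.IsPrime).mem_of_pow_mem 2 ?_
    rw [show (c - 1) ^ 2 = c * c - 1 - 2 * (c - 1) by ring]
    exact sub_mem h1' (Ideal.mul_mem_right _ _ h2)
  rw [mem_wild_iff P h2 hπ hπ' hw, hc, show π * c + v - π = π * (c - 1) + v by ring]
  refine add_mem ?_ hv
  rw [sq]
  exact Ideal.mul_mem_mul hπ hc1

variable {F : Type*} [Field F] [CharP F 2]

theorem eq_one_of_pow_two_pow {x : F} {k : ℕ} (h : x ^ 2 ^ k = 1) : x = 1 := by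
  rw [← sub_eq_zero]
  exact IsNilpotent.eq_zero ⟨2 ^ k, by rw [sub_pow_char_pow, h, one_pow, sub_self]⟩

include h2 in
/-- **A character with values in a field of characteristic two kills inertia.** -/
theorem char_inertia (χ : (K ≃ₐ[ℚ] K) →* Fˣ) {τ : K ≃ₐ[ℚ] K}
    (hτ : τ ∈ P.inertia (K ≃ₐ[ℚ] K)) : χ τ = 1 := by
  have hW : ∀ σ ∈ wild P, χ σ = 1 := fun σ hσ => by
    obtain ⟨k, hk⟩ := wild_pow_eq_one P h2 hσ
    refine Units.ext (eq_one_of_pow_two_pow (k := k) ?_)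
    rw [← Units.val_pow_eq_pow_val, ← map_pow, hk, map_one, Units.val_one]
  obtain ⟨φ, hφP, hφ⟩ := exists_squaring P h2
  have h := hW _ (frobenius_conj P h2 hφP hφ hτ)
  rw [map_mul, map_inv, map_mul, map_mul, map_mul, map_inv, mul_comm (χ φ) (χ τ),
    mul_inv_cancel_right, inv_mul_eq_one] at h
  simpa using h

open Matrix

variable (ρ : (K ≃ₐ[ℚ] K) →* GL (Fin 2) F) (hρ : Function.Injective ρ)

include h2 in
theorem wild_sq {σ : K ≃ₐ[ℚ] K} (hσ : σ ∈ wild P) : ρ σ ^ 2 = 1 := by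
  obtain ⟨k, hk⟩ := wild_pow_eq_one P h2 hσ
  refine Units.ext ?_
  rw [Units.val_pow_eq_pow_val, Units.val_one]
  refine sq_eq_one_of_pow (k := k) ?_
  rw [← Units.val_pow_eq_pow_val, ← map_pow, hk, map_one, Units.val_one]

include hρ h2 in
/-- **If wild inertia is nontrivial, inertia consists of involutions fixing one line.** -/
theorem inertia_of_wild (hdet : ∀ σ, (ρ σ : Matrix (Fin 2) (Fin 2) F).det = 1)
    (hne : wild P ≠ ⊥) :
    wild P = P.inertia (K ≃ₐ[ℚ] K) ∧ ∃ v : Fin 2 → F, v ≠ 0 ∧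
      ∀ τ ∈ P.inertia (K ≃ₐ[ℚ] K), (ρ τ : Matrix (Fin 2) (Fin 2) F) *ᵥ v = v := by
  obtain ⟨v, hv, hfix⟩ := exists_common_fixed (ρ.comp (wild P).subtype)
    fun σ => wild_sq P h2 ρ σ.2
  obtain ⟨a, ha, ha1⟩ := (Subgroup.ne_bot_iff_exists_ne_one.1 hne).elim
    fun a h => (⟨a.1, a.2, fun e => h (Subtype.ext e)⟩ : ∃ a, a ∈ wild P ∧ a ≠ 1)
  obtain ⟨v₀, -, -, hline₀⟩ := exists_fixed_line
    (fun e => ha1 (hρ ((map_one ρ).symm ▸ Units.ext e)))
    (by rw [← Units.val_pow_eq_pow_val, wild_sq P h2 ρ ha, Units.val_one])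
  obtain ⟨c₀, hc₀⟩ := hline₀ v (hfix ⟨a, ha⟩)
  have hc0 : c₀ ≠ 0 := fun e => hv (by rw [hc₀, e, zero_smul])
  have hline : ∀ w, (ρ a : Matrix (Fin 2) (Fin 2) F) *ᵥ w = w → ∃ c : F, w = c • v :=
    fun w hw => by
      obtain ⟨c, hc⟩ := hline₀ w hw
      exact ⟨c / c₀, by rw [hc₀, smul_smul, div_mul_cancel₀ c hc0, hc]⟩
  have hstab : ∀ g : K ≃ₐ[ℚ] K, g • P = P →
      ∃ c : F, (ρ g : Matrix (Fin 2) (Fin 2) F) *ᵥ v = c • v := fun g hg => by
    refine hline _ ?_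
    have hmem : g⁻¹ * a * g⁻¹⁻¹ ∈ wild P := wild_conj P (inv_smul_eq_iff.2 hg.symm) ha
    have h := congrArg (fun w => (ρ g : Matrix (Fin 2) (Fin 2) F) *ᵥ w) (hfix ⟨_, hmem⟩)
    simpa [mulVec_mulVec, ← Units.val_mul, ← map_mul, mul_assoc] using h
  obtain ⟨φ, hφP, hφ⟩ := exists_squaring P h2
  have hWI : wild P = P.inertia (K ≃ₐ[ℚ] K) := by
    refine le_antisymm (wild_le P) fun τ hτ => ?_
    set w := τ⁻¹ * (φ * τ * φ⁻¹)
    have hwI : w ∈ P.inertia (K ≃ₐ[ℚ] K) := mul_mem (inv_mem hτ) (inertia_conj P hφP hτ)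
    obtain ⟨χ, hχ⟩ := exists_char (ρ.comp (MulAction.stabilizer (K ≃ₐ[ℚ] K) P).subtype) hv
      fun g => hstab g.1 (MulAction.mem_stabilizer_iff.1 g.2)
    set s : MulAction.stabilizer (K ≃ₐ[ℚ] K) P :=
      ⟨τ, MulAction.mem_stabilizer_iff.2 (inertia_smul_eq P hτ)⟩
    set f : MulAction.stabilizer (K ≃ₐ[ℚ] K) P := ⟨φ, MulAction.mem_stabilizer_iff.2 hφP⟩
    have hwv : (ρ w : Matrix (Fin 2) (Fin 2) F) *ᵥ v = v := by
      have h := hχ (s⁻¹ * (f * s * f⁻¹))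
      have hχ1 : χ (s⁻¹ * (f * s * f⁻¹)) = 1 := by
        rw [map_mul, map_inv, map_mul, map_mul, map_inv, mul_comm (χ f), mul_inv_cancel_right,
          inv_mul_cancel]
      rw [hχ1, Units.val_one, one_smul] at h
      simpa [w, s, f] using h
    have hw2 : w * w = 1 := hρ <| Units.ext (by
      rw [map_mul, Units.val_mul, ← sq, sq_eq_one_of_det (hdet w) hv hwv, map_one, Units.val_one])
    have hwW : w ∈ wild P := mem_wild_of_sq P h2 hwI (hw2 ▸ one_mem _)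
    have hW' := frobenius_conj P h2 hφP hφ hτ
    rw [_root_.mul_inv_rev, mul_assoc] at hW'
    simpa using (Subgroup.mul_mem_cancel_right _ hwW).1 hW'
  exact ⟨hWI, v, hv, fun τ hτ => hfix ⟨τ, by rw [hWI]; exact hτ⟩⟩

include h2 in
theorem card_inertia :
    Nat.card (P.inertia (K ≃ₐ[ℚ] K)) = vP P (2 : 𝓞 K) := by
  have := IsGaloisGroup.of_isFractionRing (K ≃ₐ[ℚ] K) ℤ (𝓞 K) ℚ K
  let p : Ideal ℤ := Ideal.span {((2 : ℕ) : ℤ)}
  have hpI : p.IsMaximal := PrincipalIdealRing.isMaximal_of_irreducible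
    (Nat.prime_iff_prime_int.mp Nat.prime_two).irreducible
  have hover : P.LiesOver p := by
    refine ⟨hpI.eq_of_le Ideal.IsPrime.ne_top' ?_⟩
    rw [Ideal.span_le, Set.singleton_subset_iff, SetLike.mem_coe, Ideal.mem_comap]
    simpa using h2
  have : Finite p.ResidueField := by
    have : Finite (ℤ ⧸ p) := Finite.of_equiv (ZMod 2) (Int.quotientSpanNatEquivZMod 2).symm.toEquiv
    exact Finite.of_surjective _ p.bijective_algebraMap_quotient_residueField.2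
  have hmap : p.map (algebraMap ℤ (𝓞 K)) = Ideal.span {(2 : 𝓞 K)} := by
    rw [Ideal.map_span, Set.image_singleton]
    simp
  rw [Ideal.card_inertia_eq_ramificationIdxIn p P,
    Ideal.ramificationIdxIn_eq_ramificationIdx p P (K ≃ₐ[ℚ] K),
    Ideal.IsDedekindDomain.ramificationIdx_eq_multiplicity p P
      (by rw [hmap, Ne, Ideal.span_singleton_eq_bot]; exact two_ne_zero), hmap, vP]

end FA.TateTwo

end
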