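import Fermat.Agent.TateTwo.Bound
import Fermat.Agent.KroneckerWeber.Tame
import Mathlib.FieldTheory.Galois.Infinite
import Mathlib.GroupTheory.QuotientGroup.Basic

/-!
# Tate's theorem at two

Let `F` be a field of characteristic two. A homomorphism from `G_ℚ` to `GL₂(F)` with open kernel
which contains the inertia groups above the odd primes takes values in involutions, and so fixes a
nonzero vector.
-/

set_option autoImplicit false
set_option linter.unusedSectionVars false
set_option linter.style.haveILetI false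

noncomputable section

open NumberField
open scoped Pointwise

local notation "Qb" => AlgebraicClosure ℚ
local notation "GQ" => AlgebraicClosure ℚ ≃ₐ[ℚ] AlgebraicClosure ℚ

namespace FA.TateTwo

variable {F : Type*} [Field F] [CharP F 2]

/-- Inertia above `q` restricts to the inertia group of a prime above `q`. -/
theorem exists_restrict_inertia (K : IntermediateField ℚ Qb) [FiniteDimensional ℚ K]
    [IsGalois ℚ K] {q : ℕ} (hq : q.Prime) (A : ValuationSubring Qb) (hA : A.LiesOverPrime q) :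
    ∃ P : Ideal (𝓞 K), P.IsMaximal ∧ (q : 𝓞 K) ∈ P ∧
      ∀ σ ∈ A.inertiaSubgroupIn ℚ, σ.restrictNormal K ∈ P.inertia (K ≃ₐ[ℚ] K) := by
  have : NumberField K := { }
  let P : Ideal (𝓞 K) := (FA.Deform.primeAt A).comap (FA.Local.intIncl K)
  have hqP : (q : 𝓞 K) ∈ P := by
    show FA.Local.intIncl K q ∈ FA.Deform.primeAt A
    rw [map_natCast, FA.Deform.mem_primeAt]
    exact hA
  have hP : P.IsPrime := Ideal.comap_isPrime _ _
  have hP0 : P ≠ ⊥ := fun h => by
    rw [h, Ideal.mem_bot] at hqP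
    exact hq.ne_zero (by exact_mod_cast hqP)
  refine ⟨P, hP.isMaximal hP0, hqP, fun σ hσ y => ?_⟩
  show FA.Local.intIncl K ((σ.restrictNormal K) • y - y) ∈ FA.Deform.primeAt A
  rw [FA.Deform.mem_primeAt, A.mem_nonunits_iff]
  have e : ((FA.Local.intIncl K ((σ.restrictNormal K) • y - y) : FA.Deform.ZBar) : Qb) =
      σ ((y : K) : Qb) - ((y : K) : Qb) := by
    rw [FA.Local.coe_intIncl]
    show ((((σ.restrictNormal K) (y : K) - (y : K) : K) : Qb)) = _
    push_cast
    congr 1
    exact AlgEquiv.restrictNormal_commutes σ K (y : K)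
  rw [e]
  exact (FA.Local.inert_of_mem_inertiaSubgroupIn A hσ).sub_lt _ ((A.valuation_le_one_iff _).mpr
    (FA.Deform.zbar_mem_valuationSubring A (FA.Local.intIncl K y)))

/-- **Tate's theorem**: every value of a representation unramified outside `2` in `GL₂` of a field
of characteristic two squares to one. -/
theorem sq_eq_one (ρ : GQ →* GL (Fin 2) F) (hopen : IsOpen (ρ.ker : Set GQ))
    (hun : ∀ q : ℕ, q.Prime → q ≠ 2 → ∀ A : ValuationSubring Qb, A.LiesOverPrime q →
      A.inertiaSubgroupIn ℚ ≤ ρ.ker) (g : GQ) : ρ g ^ 2 = 1 := by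
  set K := IntermediateField.fixedField ρ.ker
  have hK : K.fixingSubgroup = ρ.ker :=
    InfiniteGalois.fixingSubgroup_fixedField ⟨ρ.ker, Subgroup.isClosed_of_isOpen ρ.ker hopen⟩
  have hgal : IsGalois ℚ K := (InfiniteGalois.normal_iff_isGalois K).mp (by rw [hK]; infer_instance)
  have hfd : FiniteDimensional ℚ K :=
    (InfiniteGalois.isOpen_iff_finite K).mp (by rw [hK]; exact hopen)
  have : NumberField K := { }
  have : Normal ℚ K := IsGalois.to_normal
  let res : GQ →* (K ≃ₐ[ℚ] K) := AlgEquiv.restrictNormalHom K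
  have hres : Function.Surjective res := AlgEquiv.restrictNormalHom_surjective Qb
  have hker : res.ker = ρ.ker := (IntermediateField.restrictNormalHom_ker K).trans hK
  let ρ' : (K ≃ₐ[ℚ] K) →* GL (Fin 2) F := res.liftOfSurjective hres ⟨ρ, hker.le⟩
  have hρ' : ∀ σ, ρ' (res σ) = ρ σ := fun σ =>
    res.liftOfRightInverse_comp_apply _ (Function.rightInverse_surjInv hres) ⟨ρ, hker.le⟩ σ
  have hinj : Function.Injective ρ' := (injective_iff_map_eq_one ρ').mpr fun x hx => by
    obtain ⟨σ, rfl⟩ := hres x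
    rw [hρ' σ] at hx
    exact MonoidHom.mem_ker.mp (hker ▸ MonoidHom.mem_ker.mpr hx)
  have hodd : ∀ (q : ℕ) (Q : Ideal (𝓞 K)) [Q.IsMaximal], q.Prime → q ≠ 2 → (q : 𝓞 K) ∈ Q →
      Algebra.IsUnramifiedAt ℤ Q := fun q Q _ hq hq2 hqQ =>
    Faltings.isUnramifiedAt_of_inertia_le K hq (fun A hA => hK.symm ▸ hun q hq hq2 A hA) Q hqQ
  have hχ : ∀ χ : (K ≃ₐ[ℚ] K) →* Fˣ, χ = 1 := fun χ => by
    have htop : (χ.comp res).ker = ⊤ := FA.Local.eq_top_of_inertia_le _ K
      (fun σ hσ => MonoidHom.mem_ker.mpr (by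
        have : res σ = 1 := MonoidHom.mem_ker.mp (hker ▸ hK ▸
          (IntermediateField.mem_fixingSubgroup_iff K σ).mpr hσ)
        rw [MonoidHom.comp_apply, this, map_one])) fun q hq => by
      obtain ⟨A, hA⟩ := FA.Deform.exists_liesOverPrime hq
      refine ⟨A, hA, fun σ hσ => MonoidHom.mem_ker.mpr ?_⟩
      rw [MonoidHom.comp_apply]
      rcases eq_or_ne q 2 with rfl | hq2
      · obtain ⟨P, hP, h2, hin⟩ := exists_restrict_inertia K hq A hA
        exact char_inertia P (by simpa using h2) χ (hin σ hσ)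
      · rw [MonoidHom.mem_ker.mp (hker ▸ hun q hq hq2 A hA hσ : σ ∈ res.ker), map_one]
    refine MonoidHom.ext fun x => ?_
    obtain ⟨σ, rfl⟩ := hres x
    exact MonoidHom.mem_ker.mp (htop ▸ Subgroup.mem_top σ : σ ∈ (χ.comp res).ker)
  obtain ⟨A, hA⟩ := FA.Deform.exists_liesOverPrime Nat.prime_two
  obtain ⟨P, hP, h2, -⟩ := exists_restrict_inertia K Nat.prime_two A hA
  rw [← hρ' g]
  exact sq_eq_one_of_unramified hodd P (by simpa using h2) ρ' hinj hχ _

end FA.TateTwo

end
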